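import Mathlib
import Fermat.Prelude.Def_ModularCurve_PeriodMap
import Fermat.Prelude.Def_ModularCurve_GenusNumerics

/-!
# Upper bound for the dimension of the space of parabolic homomorphisms

Abstract "Shapiro lemma" bound: for a finite index subgroup `Γ` of a group `G` generated by
`S`, `U` with `S² = U³ = z` central of order `≤ 2`, the additive maps `Γ → ℂ` embed into pairs of
functions on `G ⧸ Γ`.
-/

namespace Fermat.Agent.S21.ParBound

open Module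

section Abstract

variable {G : Type*} [Group G] (Γ : Subgroup G)

/-- chosen coset representative -/
noncomputable def rep (x : G ⧸ Γ) : G := Quotient.out x

lemma mk_rep (x : G ⧸ Γ) : ((rep Γ x : G) : G ⧸ Γ) = x := QuotientGroup.out_eq' x

lemma smul_eq_mk (g : G) (x : G ⧸ Γ) : g • x = ((g * rep Γ x : G) : G ⧸ Γ) := by
  conv_lhs => rw [← mk_rep Γ x]
  rfl

lemma cocyc_mem (g : G) (x : G ⧸ Γ) : (rep Γ (g • x))⁻¹ * g * rep Γ x ∈ Γ := by
  rw [mul_assoc, ← QuotientGroup.eq, mk_rep, smul_eq_mk]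

/-- the cocycle `γ(g, x) = r_{gx}⁻¹ g r_x` -/
noncomputable def cocyc (g : G) (x : G ⧸ Γ) : Γ :=
  ⟨(rep Γ (g • x))⁻¹ * g * rep Γ x, cocyc_mem Γ g x⟩

lemma cocyc_mul (g h : G) (x : G ⧸ Γ) :
    cocyc Γ (g * h) x = cocyc Γ g (h • x) * cocyc Γ h x := by
  apply Subtype.ext
  simp only [cocyc, Subgroup.coe_mul, mul_smul]
  group

lemma cocyc_one (x : G ⧸ Γ) : cocyc Γ 1 x = 1 := by
  apply Subtype.ext
  simp only [cocyc, one_smul, mul_one, inv_mul_cancel, Subgroup.coe_one]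

/-- the induced function `F_φ(g)(x) = φ(γ(g, x))` -/
noncomputable def cof (φ : Additive Γ →+ ℂ) (g : G) (x : G ⧸ Γ) : ℂ :=
  φ (Additive.ofMul (cocyc Γ g x))

lemma cof_mul (φ : Additive Γ →+ ℂ) (g h : G) (x : G ⧸ Γ) :
    cof Γ φ (g * h) x = cof Γ φ g (h • x) + cof Γ φ h x := by
  simp only [cof, cocyc_mul, ofMul_mul, map_add]

lemma cof_one (φ : Additive Γ →+ ℂ) (x : G ⧸ Γ) : cof Γ φ 1 x = 0 := by
  simp only [cof, cocyc_one, ofMul_one, map_zero]

lemma cof_inv (φ : Additive Γ →+ ℂ) (g : G) (x : G ⧸ Γ) :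
    cof Γ φ g⁻¹ x = - cof Γ φ g (g⁻¹ • x) := by
  have h := cof_mul Γ φ g g⁻¹ x
  rw [mul_inv_cancel, cof_one] at h
  linear_combination -h

lemma cof_pow (φ : Additive Γ →+ ℂ) (g : G) (m : ℕ) (x : G ⧸ Γ) :
    cof Γ φ (g ^ m) x = ∑ i ∈ Finset.range m, cof Γ φ g (g ^ i • x) := by
  induction m with
  | zero => simp [cof_one]
  | succ m ih => rw [pow_succ', cof_mul, ih, Finset.sum_range_succ, add_comm]

/-- hypotheses of the abstract bound -/
structure Data (S U z : G) (n : ℕ) : Prop where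
  z_mem : z ∈ Γ
  z_comm : ∀ g : G, g * z = z * g
  z_sq : z * z = 1
  S_sq : S * S = z
  U_cube : U * U * U = z
  gen : Subgroup.closure {S, U} = ⊤
  n_pos : 0 < n
  T_pow : ∀ x : G ⧸ Γ, (S⁻¹ * U) ^ n • x = x

variable {Γ} {S U z : G} {n : ℕ}

lemma Data.z_smul (D : Data Γ S U z n) (x : G ⧸ Γ) : z • x = x := by
  rw [smul_eq_mk, ← D.z_comm]
  conv_rhs => rw [← mk_rep Γ x]
  rw [eq_comm, QuotientGroup.eq]
  simpa using D.z_mem

lemma Data.cocyc_z (D : Data Γ S U z n) (x : G ⧸ Γ) : cocyc Γ z x = ⟨z, D.z_mem⟩ := by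
  apply Subtype.ext
  simp only [cocyc]
  rw [D.z_smul, mul_assoc, ← D.z_comm, ← mul_assoc, inv_mul_cancel, one_mul]

lemma Data.phi_z (D : Data Γ S U z n) (φ : Additive Γ →+ ℂ) :
    φ (Additive.ofMul ⟨z, D.z_mem⟩) = 0 := by
  have h : φ (Additive.ofMul ((⟨z, D.z_mem⟩ : Γ) * ⟨z, D.z_mem⟩)) = 0 := by
    have h1 : ((⟨z, D.z_mem⟩ : Γ) * ⟨z, D.z_mem⟩) = 1 := Subtype.ext D.z_sq
    rw [h1, ofMul_one, map_zero]
  rw [ofMul_mul, map_add] at h
  linear_combination (1 / 2 : ℂ) * h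

lemma Data.cof_z (D : Data Γ S U z n) (φ : Additive Γ →+ ℂ) (x : G ⧸ Γ) : cof Γ φ z x = 0 := by
  rw [cof, D.cocyc_z, D.phi_z]

lemma Data.cof_S (D : Data Γ S U z n) (φ : Additive Γ →+ ℂ) (x : G ⧸ Γ) :
    cof Γ φ S (S • x) + cof Γ φ S x = 0 := by
  rw [← cof_mul, D.S_sq, D.cof_z]

lemma Data.cof_U (D : Data Γ S U z n) (φ : Additive Γ →+ ℂ) (x : G ⧸ Γ) :
    cof Γ φ U (U • U • x) + cof Γ φ U (U • x) + cof Γ φ U x = 0 := by
  have h := cof_mul Γ φ (U * U) U x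
  rw [D.U_cube, D.cof_z, cof_mul] at h
  exact h.symm

lemma Data.S_smul_S (D : Data Γ S U z n) (x : G ⧸ Γ) : S • S • x = x := by
  rw [← mul_smul, D.S_sq, D.z_smul]

lemma Data.U_smul_U (D : Data Γ S U z n) (x : G ⧸ Γ) : U • U • U • x = x := by
  rw [← mul_smul, ← mul_smul, D.U_cube, D.z_smul]

lemma cof_T (φ : Additive Γ →+ ℂ) (S U : G) (x : G ⧸ Γ) :
    cof Γ φ (S⁻¹ * U) x = cof Γ φ U x - cof Γ φ S ((S⁻¹ * U) • x) := by
  have h := cof_mul Γ φ S (S⁻¹ * U) x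
  rw [mul_inv_cancel_left] at h
  linear_combination -h

variable (Γ)

/-- translation operator on functions on the coset space -/
noncomputable def tr (g : G) : ((G ⧸ Γ) → ℂ) →ₗ[ℂ] ((G ⧸ Γ) → ℂ) :=
  LinearMap.funLeft ℂ ℂ (fun x => g • x)

@[simp] lemma tr_apply (g : G) (v : (G ⧸ Γ) → ℂ) (x : G ⧸ Γ) : tr Γ g v x = v (g • x) := rfl

/-- anti-invariants of `S` -/
noncomputable def KS (S : G) : Submodule ℂ ((G ⧸ Γ) → ℂ) := LinearMap.ker (tr Γ S + 1)

/-- kernel of `1 + U + U²` -/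
noncomputable def KU (U : G) : Submodule ℂ ((G ⧸ Γ) → ℂ) :=
  LinearMap.ker (tr Γ U ∘ₗ tr Γ U + tr Γ U + 1)

lemma mem_KS {S : G} {a : (G ⧸ Γ) → ℂ} : a ∈ KS Γ S ↔ ∀ x, a (S • x) + a x = 0 := by
  simp only [KS, LinearMap.mem_ker, LinearMap.add_apply, Module.End.one_apply, funext_iff,
    Pi.add_apply, tr_apply, Pi.zero_apply]

lemma mem_KU {U : G} {b : (G ⧸ Γ) → ℂ} :
    b ∈ KU Γ U ↔ ∀ x, b (U • U • x) + b (U • x) + b x = 0 := by
  simp only [KU, LinearMap.mem_ker, LinearMap.add_apply, Module.End.one_apply, funext_iff,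
    Pi.add_apply, tr_apply, Pi.zero_apply, LinearMap.comp_apply]

/-- the sum over `n` consecutive translates -/
noncomputable def piT (T : G) (n : ℕ) : ((G ⧸ Γ) → ℂ) →ₗ[ℂ] ((G ⧸ Γ) → ℂ) :=
  ∑ i ∈ Finset.range n, tr Γ (T ^ i)

lemma piT_apply (T : G) (n : ℕ) (v : (G ⧸ Γ) → ℂ) (x : G ⧸ Γ) :
    piT Γ T n v x = ∑ i ∈ Finset.range n, v (T ^ i • x) := by
  simp only [piT, LinearMap.sum_apply, Finset.sum_apply, tr_apply]

/-- the constraint map -/
noncomputable def theta (S U : G) (n : ℕ) : (KS Γ S × KU Γ U) →ₗ[ℂ] ((G ⧸ Γ) → ℂ) :=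
  piT Γ (S⁻¹ * U) n ∘ₗ ((KU Γ U).subtype ∘ₗ LinearMap.snd ℂ _ _ -
    tr Γ (S⁻¹ * U) ∘ₗ (KS Γ S).subtype ∘ₗ LinearMap.fst ℂ _ _)

lemma theta_apply (S U : G) (n : ℕ) (p : KS Γ S × KU Γ U) :
    theta Γ S U n p = piT Γ (S⁻¹ * U) n
      ((p.2 : (G ⧸ Γ) → ℂ) - tr Γ (S⁻¹ * U) (p.1 : (G ⧸ Γ) → ℂ)) := rfl

/-- the embedding of `K_S × K_U` -/
noncomputable def emb (S U : G) :
    (KS Γ S × KU Γ U) →ₗ[ℂ] ((G ⧸ Γ) → ℂ) × ((G ⧸ Γ) → ℂ) :=
  LinearMap.prodMap (KS Γ S).subtype (KU Γ U).subtype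

/-- the Shapiro map -/
noncomputable def psi (S U : G) :
    (Additive Γ →+ ℂ) →ₗ[ℂ] ((G ⧸ Γ) → ℂ) × ((G ⧸ Γ) → ℂ) where
  toFun φ := (cof Γ φ S, cof Γ φ U)
  map_add' _ _ := rfl
  map_smul' _ _ := rfl

/-- the coboundary map -/
noncomputable def beta (S U : G) :
    ((G ⧸ Γ) → ℂ) →ₗ[ℂ] ((G ⧸ Γ) → ℂ) × ((G ⧸ Γ) → ℂ) :=
  LinearMap.prod (tr Γ S - 1) (tr Γ U - 1)

/-- homomorphisms vanishing on the `T^n`-cocycle values -/
noncomputable def Ppar (S U : G) (n : ℕ) : Submodule ℂ (Additive Γ →+ ℂ) where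
  carrier := {φ | ∀ x, cof Γ φ ((S⁻¹ * U) ^ n) x = 0}
  zero_mem' := fun _ => rfl
  add_mem' := by
    intro φ ψ hφ hψ x
    show cof Γ φ _ x + cof Γ ψ _ x = 0
    rw [hφ x, hψ x, add_zero]
  smul_mem' := by
    intro c φ hφ x
    show c • cof Γ φ _ x = 0
    rw [hφ x, smul_zero]

variable {Γ}

lemma Data.psi_mem (D : Data Γ S U z n) {φ : Additive Γ →+ ℂ} (hφ : φ ∈ Ppar Γ S U n) :
    psi Γ S U φ ∈ (LinearMap.ker (theta Γ S U n)).map (emb Γ S U) := by
  refine ⟨(⟨cof Γ φ S, (mem_KS Γ).2 (D.cof_S φ)⟩, ⟨cof Γ φ U, (mem_KU Γ).2 (D.cof_U φ)⟩), ?_, rfl⟩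
  rw [SetLike.mem_coe, LinearMap.mem_ker, theta_apply]
  funext x
  rw [piT_apply]
  simp only [Pi.sub_apply, tr_apply, Pi.zero_apply]
  have h := cof_pow Γ φ (S⁻¹ * U) n x
  rw [hφ x] at h
  rw [h]
  refine Finset.sum_congr rfl fun i _ => ?_
  rw [cof_T]

lemma Data.piT_comp (D : Data Γ S U z n) (v : (G ⧸ Γ) → ℂ) :
    piT Γ (S⁻¹ * U) n (tr Γ (S⁻¹ * U) v - v) = 0 := by
  funext x
  rw [piT_apply]
  simp only [Pi.sub_apply, tr_apply, Pi.zero_apply]
  have h : ∀ m : ℕ, ∑ i ∈ Finset.range m,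
      (v ((S⁻¹ * U) • (S⁻¹ * U) ^ i • x) - v ((S⁻¹ * U) ^ i • x)) = v ((S⁻¹ * U) ^ m • x) - v x := by
    intro m
    induction m with
    | zero => simp
    | succ m ih =>
      rw [Finset.sum_range_succ, ih, pow_succ', mul_smul (S⁻¹ * U) ((S⁻¹ * U) ^ m) x]; ring
  rw [h, D.T_pow, sub_self]

lemma Data.beta_mem (D : Data Γ S U z n) (v : (G ⧸ Γ) → ℂ) :
    beta Γ S U v ∈ (LinearMap.ker (theta Γ S U n)).map (emb Γ S U) := by
  have h1 : tr Γ S v - v ∈ KS Γ S := by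
    rw [mem_KS]; intro x
    simp only [Pi.sub_apply, tr_apply, D.S_smul_S]; ring
  have h2 : tr Γ U v - v ∈ KU Γ U := by
    rw [mem_KU]; intro x
    simp only [Pi.sub_apply, tr_apply, D.U_smul_U]; ring
  refine ⟨(⟨tr Γ S v - v, h1⟩, ⟨tr Γ U v - v, h2⟩), ?_, rfl⟩
  rw [SetLike.mem_coe, LinearMap.mem_ker, theta_apply]
  have h3 : (tr Γ U v - v) - tr Γ (S⁻¹ * U) (tr Γ S v - v) = tr Γ (S⁻¹ * U) v - v := by
    funext x
    simp only [Pi.sub_apply, tr_apply, map_sub]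
    rw [← mul_smul S, mul_inv_cancel_left]; ring
  show piT Γ (S⁻¹ * U) n ((tr Γ U v - v) - tr Γ (S⁻¹ * U) (tr Γ S v - v)) = 0
  rw [h3, D.piT_comp]

lemma Data.eq_zero_of_psi_eq_beta (D : Data Γ S U z n) {φ : Additive Γ →+ ℂ}
    {v : (G ⧸ Γ) → ℂ} (h : psi Γ S U φ = beta Γ S U v) : φ = 0 := by
  have hS : ∀ x, cof Γ φ S x = v (S • x) - v x := fun x =>
    congrFun (congrArg Prod.fst h) x
  have hU : ∀ x, cof Γ φ U x = v (U • x) - v x := fun x =>
    congrFun (congrArg Prod.snd h) x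
  have key : ∀ g : G, ∀ x, cof Γ φ g x = v (g • x) - v x := by
    intro g
    have hg : g ∈ Subgroup.closure {S, U} := by rw [D.gen]; trivial
    induction hg using Subgroup.closure_induction with
    | mem y hy =>
      rcases hy with rfl | rfl
      · exact hS
      · exact hU
    | one => intro x; rw [cof_one, one_smul, sub_self]
    | mul a b _ _ ha hb => intro x; rw [cof_mul, ha, hb, mul_smul]; ring
    | inv a _ ha => intro x; rw [cof_inv, ha, smul_inv_smul]; ring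
  have hr : rep Γ ((1 : G) : G ⧸ Γ) ∈ Γ := by
    have h1 := mk_rep Γ ((1 : G) : G ⧸ Γ)
    rw [QuotientGroup.eq, mul_one] at h1
    simpa using Γ.inv_mem h1
  have hfix : ∀ γ : Γ, (γ : G) • ((1 : G) : G ⧸ Γ) = ((1 : G) : G ⧸ Γ) := by
    intro γ
    show (((γ : G) * 1 : G) : G ⧸ Γ) = _
    rw [QuotientGroup.eq, mul_one]
    simpa using Γ.inv_mem γ.2
  have hc : ∀ γ : Γ, cocyc Γ (γ : G) ((1 : G) : G ⧸ Γ) =
      (⟨_, hr⟩ : Γ)⁻¹ * γ * ⟨_, hr⟩ := by
    intro γ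
    apply Subtype.ext
    simp only [cocyc, hfix, Subgroup.coe_mul, Subgroup.coe_inv]
  refine AddMonoidHom.ext fun γ' => ?_
  obtain ⟨γ, rfl⟩ := Additive.ofMul.surjective γ'
  have h2 := key (γ : G) ((1 : G) : G ⧸ Γ)
  rw [hfix, sub_self, cof, hc, ofMul_mul, ofMul_mul, ofMul_inv, map_add, map_add, map_neg] at h2
  rw [AddMonoidHom.zero_apply]
  linear_combination h2

lemma Data.psi_injective (D : Data Γ S U z n) : Function.Injective (psi Γ S U) := by
  rw [← LinearMap.ker_eq_bot, LinearMap.ker_eq_bot']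
  intro φ hφ
  exact D.eq_zero_of_psi_eq_beta (v := 0) (by rw [hφ, map_zero])

lemma Data.invariant (D : Data Γ S U z n) {v : (G ⧸ Γ) → ℂ}
    (hS : ∀ x, v (S • x) = v x) (hU : ∀ x, v (U • x) = v x) (x : G ⧸ Γ) :
    v x = v ((1 : G) : G ⧸ Γ) := by
  have key : ∀ g : G, ∀ x, v (g • x) = v x := by
    intro g
    have hg : g ∈ Subgroup.closure {S, U} := by rw [D.gen]; trivial
    induction hg using Subgroup.closure_induction with
    | mem y hy =>
      rcases hy with rfl | rfl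
      · exact hS
      · exact hU
    | one => intro x; rw [one_smul]
    | mul a b _ _ ha hb => intro x; rw [mul_smul, ha, hb]
    | inv a _ ha => intro x; rw [← ha (a⁻¹ • x), smul_inv_smul]
  have h1 : x = rep Γ x • ((1 : G) : G ⧸ Γ) := by
    conv_lhs => rw [← mk_rep Γ x]
    show _ = (((rep Γ x) * 1 : G) : G ⧸ Γ)
    rw [mul_one]
  rw [h1, key]

lemma Data.card_le (D : Data Γ S U z n) [Finite (G ⧸ Γ)] :
    Nat.card (G ⧸ Γ) ≤ finrank ℂ (LinearMap.range (beta Γ S U)) + 1 := by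
  cases nonempty_fintype (G ⧸ Γ)
  have h1 := LinearMap.finrank_range_add_finrank_ker (beta Γ S U)
  rw [Module.finrank_fintype_fun_eq_card, ← Nat.card_eq_fintype_card] at h1
  have hone : (fun _ => 1 : (G ⧸ Γ) → ℂ) ∈ LinearMap.ker (beta Γ S U) := by
    rw [LinearMap.mem_ker]
    refine Prod.ext ?_ ?_ <;> · funext x; simp [beta]
  have h2 : finrank ℂ (LinearMap.ker (beta Γ S U)) ≤ 1 := by
    refine finrank_le_one ⟨_, hone⟩ fun w => ⟨(w : (G ⧸ Γ) → ℂ) ((1 : G) : G ⧸ Γ), ?_⟩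
    apply Subtype.ext
    funext x
    have hw := w.2
    rw [LinearMap.mem_ker] at hw
    have hS : ∀ x, (w : (G ⧸ Γ) → ℂ) (S • x) = (w : (G ⧸ Γ) → ℂ) x := fun x => by
      have h3 : (w : (G ⧸ Γ) → ℂ) (S • x) - (w : (G ⧸ Γ) → ℂ) x = 0 :=
        congrFun (congrArg Prod.fst hw) x
      exact sub_eq_zero.mp h3
    have hU : ∀ x, (w : (G ⧸ Γ) → ℂ) (U • x) = (w : (G ⧸ Γ) → ℂ) x := fun x => by
      have h3 : (w : (G ⧸ Γ) → ℂ) (U • x) - (w : (G ⧸ Γ) → ℂ) x = 0 :=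
        congrFun (congrArg Prod.snd hw) x
      exact sub_eq_zero.mp h3
    rw [D.invariant hS hU x]
    simp
  omega

lemma Data.single_mem (D : Data Γ S U z n) [DecidableEq (G ⧸ Γ)]
    (W : Submodule ℂ ((G ⧸ Γ) → ℂ))
    (hU : ∀ v : (G ⧸ Γ) → ℂ, tr Γ U v - v ∈ W)
    (hT : ∀ v : (G ⧸ Γ) → ℂ, tr Γ (S⁻¹ * U) v - v ∈ W)
    (h1 : (Pi.single ((1 : G) : G ⧸ Γ) (1 : ℂ) : (G ⧸ Γ) → ℂ) ∈ W) (x : G ⧸ Γ) :
    (Pi.single x (1 : ℂ) : (G ⧸ Γ) → ℂ) ∈ W := by
  have step : ∀ g : G, (∀ v : (G ⧸ Γ) → ℂ, tr Γ g v - v ∈ W) → ∀ x : G ⧸ Γ,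
      ((Pi.single (g • x) (1 : ℂ) : (G ⧸ Γ) → ℂ) ∈ W ↔
        (Pi.single x (1 : ℂ) : (G ⧸ Γ) → ℂ) ∈ W) := by
    intro g hg x
    have e1 : tr Γ g (Pi.single (g • x) (1 : ℂ)) = Pi.single x (1 : ℂ) := by
      funext y
      simp only [tr_apply, Pi.single_apply, smul_left_cancel_iff]
    have e2 := hg (Pi.single (g • x) (1 : ℂ))
    rw [e1] at e2
    constructor
    · intro h
      have := W.add_mem e2 h
      simpa using this
    · intro h
      have := W.sub_mem h e2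
      simpa using this
  have hUs := step U hU
  have hTs := step (S⁻¹ * U) hT
  have hSs : ∀ x : G ⧸ Γ, ((Pi.single (S • x) (1 : ℂ) : (G ⧸ Γ) → ℂ) ∈ W ↔
      (Pi.single x (1 : ℂ) : (G ⧸ Γ) → ℂ) ∈ W) := by
    intro x
    have e1 : S • x = U • ((S⁻¹ * U)⁻¹ • x) := by
      rw [← mul_smul]; congr 1; group
    rw [e1, hUs, ← hTs ((S⁻¹ * U)⁻¹ • x), smul_inv_smul]
  have key : ∀ g : G, ∀ x : G ⧸ Γ, ((Pi.single (g • x) (1 : ℂ) : (G ⧸ Γ) → ℂ) ∈ W ↔
      (Pi.single x (1 : ℂ) : (G ⧸ Γ) → ℂ) ∈ W) := by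
    intro g
    have hg : g ∈ Subgroup.closure {S, U} := by rw [D.gen]; trivial
    induction hg using Subgroup.closure_induction with
    | mem y hy =>
      rcases hy with rfl | rfl
      · exact hSs
      · exact hUs
    | one => intro x; rw [one_smul]
    | mul a b _ _ ha hb => intro x; rw [mul_smul, ha, hb]
    | inv a _ ha => intro x; rw [← ha (a⁻¹ • x), smul_inv_smul]
  have e3 : x = rep Γ x • ((1 : G) : G ⧸ Γ) := by
    conv_lhs => rw [← mk_rep Γ x]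
    show _ = (((rep Γ x) * 1 : G) : G ⧸ Γ)
    rw [mul_one]
  rw [e3, key]
  exact h1

lemma Data.finrank_range_piT_le (D : Data Γ S U z n) [Finite (G ⧸ Γ)] :
    finrank ℂ (LinearMap.range (piT Γ (S⁻¹ * U) n)) ≤
      finrank ℂ (LinearMap.range (theta Γ S U n)) + 1 := by
  classical
  have htop : ∀ v : (G ⧸ Γ) → ℂ, v ∈ LinearMap.range (tr Γ U - 1) ⊔
      LinearMap.range (tr Γ (S⁻¹ * U) - 1) ⊔
        Submodule.span ℂ {(Pi.single ((1 : G) : G ⧸ Γ) (1 : ℂ) : (G ⧸ Γ) → ℂ)} := by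
    intro v
    have h0 : v ∈ (⊤ : Submodule ℂ ((G ⧸ Γ) → ℂ)) := Submodule.mem_top
    rw [← (Pi.basisFun ℂ (G ⧸ Γ)).span_eq] at h0
    refine Submodule.span_le.2 ?_ h0
    rintro _ ⟨x, rfl⟩
    rw [Pi.basisFun_apply]
    refine D.single_mem _ (fun w => ?_) (fun w => ?_) ?_ x
    · exact Submodule.mem_sup_left (Submodule.mem_sup_left ⟨w, rfl⟩)
    · exact Submodule.mem_sup_left (Submodule.mem_sup_right ⟨w, rfl⟩)
    · exact Submodule.mem_sup_right (Submodule.mem_span_singleton_self _)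
  have h1 : LinearMap.range (piT Γ (S⁻¹ * U) n) ≤ LinearMap.range (theta Γ S U n) ⊔
      Submodule.span ℂ {piT Γ (S⁻¹ * U) n
        (Pi.single ((1 : G) : G ⧸ Γ) (1 : ℂ) : (G ⧸ Γ) → ℂ)} := by
    rintro _ ⟨v, rfl⟩
    obtain ⟨w, hw, d, hd, rfl⟩ := Submodule.mem_sup.1 (htop v)
    obtain ⟨u, hu, t, ht, rfl⟩ := Submodule.mem_sup.1 hw
    obtain ⟨u', rfl⟩ := hu
    obtain ⟨t', rfl⟩ := ht
    obtain ⟨c, rfl⟩ := Submodule.mem_span_singleton.1 hd
    rw [map_add]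
    refine Submodule.add_mem_sup ?_ ?_
    · have hK : tr Γ U u' - u' ∈ KU Γ U := by
        rw [mem_KU]; intro x
        simp only [Pi.sub_apply, tr_apply, D.U_smul_U]; ring
      refine ⟨((0 : KS Γ S), (⟨tr Γ U u' - u', hK⟩ : KU Γ U)), ?_⟩
      rw [theta_apply, map_add]
      have e1 : (tr Γ (S⁻¹ * U) - 1) t' = tr Γ (S⁻¹ * U) t' - t' := rfl
      rw [e1, D.piT_comp, add_zero]
      simp only [ZeroMemClass.coe_zero, map_zero, sub_zero]
      rfl
    · rw [map_smul]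
      exact Submodule.smul_mem _ _ (Submodule.mem_span_singleton_self _)
  calc finrank ℂ (LinearMap.range (piT Γ (S⁻¹ * U) n))
      ≤ finrank ℂ ↥(LinearMap.range (theta Γ S U n) ⊔
        Submodule.span ℂ {piT Γ (S⁻¹ * U) n
          (Pi.single ((1 : G) : G ⧸ Γ) (1 : ℂ) : (G ⧸ Γ) → ℂ)}) := Submodule.finrank_mono h1
    _ ≤ finrank ℂ (LinearMap.range (theta Γ S U n)) + finrank ℂ (Submodule.span ℂ
        {piT Γ (S⁻¹ * U) n (Pi.single ((1 : G) : G ⧸ Γ) (1 : ℂ) : (G ⧸ Γ) → ℂ)}) :=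
        Submodule.finrank_add_le_finrank_add_finrank _ _
    _ ≤ finrank ℂ (LinearMap.range (theta Γ S U n)) + 1 := by
        gcongr
        refine (finrank_span_le_card _).trans ?_
        simp

/-- **Abstract bound.** -/
theorem Data.bound (D : Data Γ S U z n) [Finite (G ⧸ Γ)] :
    Module.Finite ℂ (Additive Γ →+ ℂ) ∧
    finrank ℂ (Ppar Γ S U n) + (Nat.card (G ⧸ Γ) - 1) +
        (finrank ℂ (LinearMap.range (piT Γ (S⁻¹ * U) n)) - 1) ≤
      finrank ℂ (KS Γ S) + finrank ℂ (KU Γ U) := by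
  have hfin : Module.Finite ℂ (Additive Γ →+ ℂ) :=
    Module.Finite.of_injective (psi Γ S U) D.psi_injective
  refine ⟨hfin, ?_⟩
  have hA : (Ppar Γ S U n).map (psi Γ S U) ≤ (LinearMap.ker (theta Γ S U n)).map (emb Γ S U) := by
    rintro _ ⟨φ, hφ, rfl⟩
    exact D.psi_mem hφ
  have hB : LinearMap.range (beta Γ S U) ≤ (LinearMap.ker (theta Γ S U n)).map (emb Γ S U) := by
    rintro _ ⟨v, rfl⟩
    exact D.beta_mem v
  have hAB : (Ppar Γ S U n).map (psi Γ S U) ⊓ LinearMap.range (beta Γ S U) = ⊥ := by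
    rw [eq_bot_iff]
    rintro w ⟨⟨φ, -, rfl⟩, ⟨v, hv⟩⟩
    rw [D.eq_zero_of_psi_eq_beta hv.symm, map_zero]
    exact Submodule.zero_mem _
  have e1 : finrank ℂ ((Ppar Γ S U n).map (psi Γ S U)) = finrank ℂ (Ppar Γ S U n) :=
    (Submodule.equivMapOfInjective (psi Γ S U) D.psi_injective (Ppar Γ S U n)).finrank_eq.symm
  have e2 := Submodule.finrank_sup_add_finrank_inf_eq ((Ppar Γ S U n).map (psi Γ S U))
    (LinearMap.range (beta Γ S U))
  rw [hAB, finrank_bot, add_zero, e1] at e2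
  have e3 : finrank ℂ ↥((Ppar Γ S U n).map (psi Γ S U) ⊔ LinearMap.range (beta Γ S U)) ≤
      finrank ℂ ↥((LinearMap.ker (theta Γ S U n)).map (emb Γ S U)) :=
    Submodule.finrank_mono (sup_le hA hB)
  have e4 : finrank ℂ ↥((LinearMap.ker (theta Γ S U n)).map (emb Γ S U)) ≤
      finrank ℂ (LinearMap.ker (theta Γ S U n)) := Submodule.finrank_map_le _ _
  have e5 := LinearMap.finrank_range_add_finrank_ker (theta Γ S U n)
  rw [Module.finrank_prod] at e5
  have e6 := D.finrank_range_piT_le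
  have e7 := D.card_le
  omega

/-! ### Conversion of the dimensions into orbit / fixed point counts -/

variable (Γ)

lemma finrank_fun [Finite (G ⧸ Γ)] : finrank ℂ ((G ⧸ Γ) → ℂ) = Nat.card (G ⧸ Γ) := by
  cases nonempty_fintype (G ⧸ Γ)
  rw [Module.finrank_fintype_fun_eq_card, Nat.card_eq_fintype_card]

lemma trace_tr [Finite (G ⧸ Γ)] (g : G) :
    LinearMap.trace ℂ ((G ⧸ Γ) → ℂ) (tr Γ g) =
      (Nat.card (MulAction.fixedBy (G ⧸ Γ) g) : ℂ) := by
  classical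
  cases nonempty_fintype (G ⧸ Γ)
  rw [LinearMap.trace_eq_matrix_trace ℂ (Pi.basisFun ℂ (G ⧸ Γ))]
  have h1 : ∀ x : G ⧸ Γ, LinearMap.toMatrix (Pi.basisFun ℂ (G ⧸ Γ)) (Pi.basisFun ℂ (G ⧸ Γ))
      (tr Γ g) x x = if g • x = x then 1 else 0 := by
    intro x
    rw [LinearMap.toMatrix_apply, Pi.basisFun_repr, Pi.basisFun_apply, tr_apply, Pi.single_apply]
  rw [Matrix.trace]
  simp only [Matrix.diag_apply, h1]
  rw [Finset.sum_boole, Nat.card_eq_fintype_card]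
  congr 1
  rw [← Fintype.card_subtype]
  rfl

lemma two_mul_finrank_KS [Finite (G ⧸ Γ)] {S : G} (hS : ∀ x : G ⧸ Γ, S • S • x = x) :
    2 * finrank ℂ (KS Γ S) + Nat.card (MulAction.fixedBy (G ⧸ Γ) S) = Nat.card (G ⧸ Γ) := by
  have hproj : LinearMap.IsProj (KS Γ S) ((1 / 2 : ℂ) • (1 - tr Γ S)) := by
    constructor
    · intro v
      rw [mem_KS]; intro x
      simp only [LinearMap.smul_apply, LinearMap.sub_apply, Module.End.one_apply, Pi.smul_apply,
        Pi.sub_apply, tr_apply, hS, smul_eq_mul]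
      ring
    · intro v hv
      rw [mem_KS] at hv
      funext x
      simp only [LinearMap.smul_apply, LinearMap.sub_apply, Module.End.one_apply, Pi.smul_apply,
        Pi.sub_apply, tr_apply, smul_eq_mul]
      linear_combination (-1 / 2 : ℂ) * hv x
  have h1 := hproj.trace
  rw [map_smul, map_sub, LinearMap.trace_one, trace_tr, finrank_fun, smul_eq_mul] at h1
  have h2 : ((2 * finrank ℂ (KS Γ S) + Nat.card (MulAction.fixedBy (G ⧸ Γ) S) : ℕ) : ℂ) =
      ((Nat.card (G ⧸ Γ) : ℕ) : ℂ) := by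
    push_cast
    linear_combination (-2 : ℂ) * h1
  exact_mod_cast h2

lemma three_mul_finrank_KU [Finite (G ⧸ Γ)] {U : G} (hU : ∀ x : G ⧸ Γ, U • U • U • x = x) :
    3 * finrank ℂ (KU Γ U) + 2 * Nat.card (MulAction.fixedBy (G ⧸ Γ) U) =
      2 * Nat.card (G ⧸ Γ) := by
  have hproj : LinearMap.IsProj (KU Γ U)
      ((1 / 3 : ℂ) • ((2 : ℂ) • 1 - tr Γ U - tr Γ (U * U))) := by
    constructor
    · intro v
      rw [mem_KU]; intro x
      simp only [LinearMap.smul_apply, LinearMap.sub_apply, Module.End.one_apply, Pi.smul_apply,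
        Pi.sub_apply, tr_apply, mul_smul, hU, smul_eq_mul]
      ring
    · intro v hv
      rw [mem_KU] at hv
      funext x
      simp only [LinearMap.smul_apply, LinearMap.sub_apply, Module.End.one_apply, Pi.smul_apply,
        Pi.sub_apply, tr_apply, mul_smul, smul_eq_mul]
      linear_combination (-1 / 3 : ℂ) * hv x
  have hfix : MulAction.fixedBy (G ⧸ Γ) (U * U) = MulAction.fixedBy (G ⧸ Γ) U := by
    ext x
    simp only [MulAction.mem_fixedBy, mul_smul]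
    constructor
    · intro h
      have h2 := congrArg (fun y => U • y) h
      simp only [hU] at h2
      exact h2.symm
    · intro h
      rw [h, h]
  have h1 := hproj.trace
  rw [map_smul, map_sub, map_sub, map_smul, LinearMap.trace_one, trace_tr, trace_tr, hfix,
    finrank_fun, smul_eq_mul, smul_eq_mul] at h1
  have h2 : ((3 * finrank ℂ (KU Γ U) + 2 * Nat.card (MulAction.fixedBy (G ⧸ Γ) U) : ℕ) : ℂ) =
      ((2 * Nat.card (G ⧸ Γ) : ℕ) : ℂ) := by
    push_cast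
    linear_combination (-3 : ℂ) * h1
  exact_mod_cast h2

lemma finrank_range_piT [Finite (G ⧸ Γ)] (T : G) {n : ℕ} (hn : 0 < n)
    (hT : ∀ x : G ⧸ Γ, T ^ n • x = x) :
    finrank ℂ (LinearMap.range (piT Γ T n)) =
      Nat.card (MulAction.orbitRel.Quotient (Subgroup.zpowers T) (G ⧸ Γ)) := by
  have hq_surj : Function.Surjective (Quotient.mk'' :
      (G ⧸ Γ) → MulAction.orbitRel.Quotient (Subgroup.zpowers T) (G ⧸ Γ)) :=
    Quotient.mk''_surjective
  have hinj := LinearMap.funLeft_injective_of_surjective ℂ ℂ _ hq_surj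
  -- invariance of the image of `piT`
  have hpi : ∀ (v : (G ⧸ Γ) → ℂ) (x : G ⧸ Γ), piT Γ T n v (T • x) = piT Γ T n v x := by
    intro v x
    rw [piT_apply, piT_apply]
    have h : ∀ m : ℕ, ∑ i ∈ Finset.range m, v (T ^ i • T • x) + v x =
        ∑ i ∈ Finset.range m, v (T ^ i • x) + v (T ^ m • x) := by
      intro m
      induction m with
      | zero => simp
      | succ m ih =>
        rw [Finset.sum_range_succ, Finset.sum_range_succ, ← ih, ← mul_smul, ← pow_succ]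
        ring
    have h2 := h n
    rw [hT] at h2
    exact add_right_cancel h2
  have hrange : LinearMap.range (piT Γ T n) = LinearMap.range (LinearMap.funLeft ℂ ℂ
      (Quotient.mk'' : (G ⧸ Γ) → MulAction.orbitRel.Quotient (Subgroup.zpowers T) (G ⧸ Γ))) := by
    apply le_antisymm
    · rintro _ ⟨v, rfl⟩
      have key : ∀ g ∈ Subgroup.zpowers T, ∀ x, piT Γ T n v (g • x) = piT Γ T n v x := by
        intro g hg
        rw [Subgroup.zpowers_eq_closure] at hg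
        induction hg using Subgroup.closure_induction with
        | mem y hy => rw [Set.mem_singleton_iff] at hy; subst hy; exact hpi v
        | one => intro x; rw [one_smul]
        | mul a b _ _ ha hb => intro x; rw [mul_smul, ha, hb]
        | inv a _ ha => intro x; rw [← ha (a⁻¹ • x), smul_inv_smul]
      refine ⟨Quotient.lift (piT Γ T n v) ?_, ?_⟩
      · rintro a b ⟨h, rfl⟩
        exact key h.1 h.2 b
      · funext x
        rfl
    · rintro _ ⟨w, rfl⟩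
      refine ⟨(n : ℂ)⁻¹ • LinearMap.funLeft ℂ ℂ Quotient.mk'' w, ?_⟩
      funext x
      rw [map_smul, Pi.smul_apply, piT_apply]
      have h : ∀ i : ℕ, (LinearMap.funLeft ℂ ℂ (Quotient.mk'' :
          (G ⧸ Γ) → MulAction.orbitRel.Quotient (Subgroup.zpowers T) (G ⧸ Γ)) w) (T ^ i • x) =
          (LinearMap.funLeft ℂ ℂ (Quotient.mk'' :
          (G ⧸ Γ) → MulAction.orbitRel.Quotient (Subgroup.zpowers T) (G ⧸ Γ)) w) x := by
        intro i
        show w (Quotient.mk'' (T ^ i • x)) = w (Quotient.mk'' x)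
        congr 1
        apply Quotient.sound'
        exact ⟨⟨T ^ i, Subgroup.pow_mem _ (Subgroup.mem_zpowers T) i⟩, rfl⟩
      rw [Finset.sum_congr rfl fun i _ => h i, Finset.sum_const, Finset.card_range, smul_eq_mul,
        nsmul_eq_mul]
      have hn' : (n : ℂ) ≠ 0 := Nat.cast_ne_zero.2 hn.ne'
      field_simp
  rw [hrange, LinearMap.finrank_range_of_inj hinj]
  cases nonempty_fintype (MulAction.orbitRel.Quotient (Subgroup.zpowers T) (G ⧸ Γ))
  rw [Module.finrank_fintype_fun_eq_card, Nat.card_eq_fintype_card]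

/-- **Abstract bound, in terms of orbit and fixed point counts.** -/
theorem Data.bound_counts {Γ : Subgroup G} {S U z : G} {n : ℕ} (D : Data Γ S U z n)
    [Finite (G ⧸ Γ)] :
    Module.Finite ℂ (Additive Γ →+ ℂ) ∧
    6 * finrank ℂ (Ppar Γ S U n) + 3 * Nat.card (MulAction.fixedBy (G ⧸ Γ) S) +
        4 * Nat.card (MulAction.fixedBy (G ⧸ Γ) U) +
        6 * Nat.card (MulAction.orbitRel.Quotient (Subgroup.zpowers (S⁻¹ * U)) (G ⧸ Γ)) ≤
      Nat.card (G ⧸ Γ) + 12 := by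
  refine ⟨D.bound.1, ?_⟩
  have h1 := D.bound.2
  have h2 := two_mul_finrank_KS Γ D.S_smul_S
  have h3 := three_mul_finrank_KU Γ D.U_smul_U
  have h4 := finrank_range_piT Γ (S⁻¹ * U) D.n_pos D.T_pow
  have h5 : 0 < Nat.card (G ⧸ Γ) := Nat.card_pos
  have h6 : 0 < Nat.card (MulAction.orbitRel.Quotient (Subgroup.zpowers (S⁻¹ * U)) (G ⧸ Γ)) :=
    Nat.card_pos
  omega

end Abstract

/-! ### The case of `Γ₀(N)` -/

section Concrete

open CongruenceSubgroup Matrix ModularCurve.Period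

open scoped MatrixGroups

lemma S_mul_S : ModularGroup.S * ModularGroup.S = (-1 : SL(2, ℤ)) := by
  apply Subtype.ext
  rw [Matrix.SpecialLinearGroup.coe_mul, ModularGroup.S_mul_S_eq]
  simp

lemma ST_cube : ModularGroup.S * ModularGroup.T * (ModularGroup.S * ModularGroup.T) *
    (ModularGroup.S * ModularGroup.T) = (-1 : SL(2, ℤ)) := by
  apply Subtype.ext
  simp only [Matrix.SpecialLinearGroup.coe_mul, ModularGroup.coe_S, ModularGroup.coe_T,
    Matrix.SpecialLinearGroup.coe_neg, Matrix.SpecialLinearGroup.coe_one]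
  ext i j
  fin_cases i <;> fin_cases j <;> simp [Matrix.mul_apply, Fin.sum_univ_two]

lemma closure_S_ST : Subgroup.closure ({ModularGroup.S, ModularGroup.S * ModularGroup.T} :
    Set SL(2, ℤ)) = ⊤ := by
  rw [eq_top_iff, ← _root_.SpecialLinearGroup.SL2Z_generators, Subgroup.closure_le]
  rintro g (rfl | rfl)
  · exact Subgroup.subset_closure (Set.mem_insert _ _)
  · have h1 : ModularGroup.S ∈ Subgroup.closure
        ({ModularGroup.S, ModularGroup.S * ModularGroup.T} : Set SL(2, ℤ)) :=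
      Subgroup.subset_closure (Set.mem_insert _ _)
    have h2 : ModularGroup.S * ModularGroup.T ∈ Subgroup.closure
        ({ModularGroup.S, ModularGroup.S * ModularGroup.T} : Set SL(2, ℤ)) :=
      Subgroup.subset_closure (Set.mem_insert_of_mem _ rfl)
    have h3 := Subgroup.mul_mem _ (Subgroup.inv_mem _ h1) h2
    rwa [inv_mul_cancel_left] at h3

lemma T_pow_smul (N : ℕ) (x : SL(2, ℤ) ⧸ Gamma0 N) : ModularGroup.T ^ N • x = x := by
  rw [smul_eq_mk]
  conv_rhs => rw [← mk_rep (Gamma0 N) x]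
  rw [eq_comm, QuotientGroup.eq]
  have h1 : ModularGroup.T ^ N ∈ Gamma N := by
    have := ModularGroup_T_pow_mem_Gamma (N : ℤ) (N : ℤ) dvd_rfl
    rwa [zpow_natCast, Int.natAbs_natCast] at this
  have h2 : (rep (Gamma0 N) x)⁻¹ * ModularGroup.T ^ N * rep (Gamma0 N) x ∈ Gamma N :=
    (Gamma_normal N).conj_mem' _ h1 _
  rw [← mul_assoc]
  have h3 := Gamma_mem.1 h2
  exact Gamma0_mem.2 h3.2.2.1

/-- The data for `Γ₀(N)`. -/
theorem data_Gamma0 (N : ℕ) [NeZero N] :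
    Data (Gamma0 N) ModularGroup.S (ModularGroup.S * ModularGroup.T) (-1 : SL(2, ℤ)) N where
  z_mem := by simp [Gamma0_mem]
  z_comm := fun g => by simp
  z_sq := by simp
  S_sq := S_mul_S
  U_cube := ST_cube
  gen := closure_S_ST
  n_pos := NeZero.pos N
  T_pow := fun x => by rw [inv_mul_cancel_left]; exact T_pow_smul N x

lemma trace_T_pow (N : ℕ) :
    ((ModularGroup.T ^ N : SL(2, ℤ)) : Matrix (Fin 2) (Fin 2) ℤ).trace = 2 := by
  have h := ModularGroup.coe_T_zpow (N : ℤ)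
  rw [zpow_natCast] at h
  show (ModularGroup.T ^ N).1.trace = 2
  rw [h, Matrix.trace_fin_two_of]
  norm_num

lemma parabolicHoms_le (N : ℕ) [NeZero N] :
    parabolicHoms ℂ (Gamma0 N) ℂ ≤
      Ppar (Gamma0 N) ModularGroup.S (ModularGroup.S * ModularGroup.T) N := by
  intro φ hφ x
  rw [inv_mul_cancel_left]
  refine hφ _ ?_
  have h1 : ((cocyc (Gamma0 N) (ModularGroup.T ^ N) x : SL(2, ℤ)) : Matrix (Fin 2) (Fin 2) ℤ) =
      ((rep (Gamma0 N) x)⁻¹ : SL(2, ℤ)).1 * (ModularGroup.T ^ N : SL(2, ℤ)).1 *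
        (rep (Gamma0 N) x).1 := by
    simp only [cocyc, T_pow_smul, Matrix.SpecialLinearGroup.coe_mul]
  have h2 : (rep (Gamma0 N) x).1 * ((rep (Gamma0 N) x)⁻¹ : SL(2, ℤ)).1 = 1 := by
    rw [← Matrix.SpecialLinearGroup.coe_mul, mul_inv_cancel, Matrix.SpecialLinearGroup.coe_one]
  rw [h1, Matrix.trace_mul_cycle, h2, one_mul]
  have h3 := trace_T_pow N
  rw [show ((ModularGroup.T ^ N : SL(2, ℤ)) : Matrix (Fin 2) (Fin 2) ℤ) =
    (ModularGroup.T ^ N : SL(2, ℤ)).1 from rfl] at h3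
  rw [h3]
  norm_num

/-- Additive maps `Γ₀(N) → ℂ` form a finite-dimensional space. -/
theorem finite_addHom (N : ℕ) [NeZero N] : Module.Finite ℂ (Additive (Gamma0 N) →+ ℂ) :=
  (data_Gamma0 N).bound_counts.1

/-- **ES3, combinatorial form**: the dimension of the space of parabolic homomorphisms of
`Γ₀(N)` is bounded by the orbit data of `S`, `ST`, `T` on `SL(2, ℤ) ⧸ Γ₀(N)`. -/
theorem finrank_parabolicHoms_counts (N : ℕ) [NeZero N] :
    6 * finrank ℂ (parabolicHoms ℂ (Gamma0 N) ℂ) +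
        3 * Nat.card (MulAction.fixedBy (SL(2, ℤ) ⧸ Gamma0 N) ModularGroup.S) +
        4 * Nat.card (MulAction.fixedBy (SL(2, ℤ) ⧸ Gamma0 N)
          (ModularGroup.S * ModularGroup.T)) +
        6 * Nat.card (MulAction.orbitRel.Quotient (Subgroup.zpowers ModularGroup.T)
          (SL(2, ℤ) ⧸ Gamma0 N)) ≤
      Nat.card (SL(2, ℤ) ⧸ Gamma0 N) + 12 := by
  have h1 := (data_Gamma0 N).bound_counts.2
  rw [inv_mul_cancel_left] at h1
  haveI := finite_addHom N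
  have h2 : finrank ℂ (parabolicHoms ℂ (Gamma0 N) ℂ) ≤
      finrank ℂ (Ppar (Gamma0 N) ModularGroup.S (ModularGroup.S * ModularGroup.T) N) :=
    Submodule.finrank_mono (parabolicHoms_le N)
  omega

/-- **ES3**: `dim_ℂ (parabolic homs Γ₀(N) → ℂ) ≤ 2 · genus`, given the four standard counts. -/
theorem finrank_parabolicHoms_le_of_counts (N : ℕ) [NeZero N]
    (h1 : Nat.card (SL(2, ℤ) ⧸ Gamma0 N) = ModularCurve.dedekindPsi N)
    (h2 : Nat.card (MulAction.fixedBy (SL(2, ℤ) ⧸ Gamma0 N) ModularGroup.S) =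
      ModularCurve.nuTwo N)
    (h3 : Nat.card (MulAction.fixedBy (SL(2, ℤ) ⧸ Gamma0 N)
      (ModularGroup.S * ModularGroup.T)) = ModularCurve.nuThree N)
    (h4 : Nat.card (MulAction.orbitRel.Quotient (Subgroup.zpowers ModularGroup.T)
      (SL(2, ℤ) ⧸ Gamma0 N)) = ModularCurve.cuspCount N) :
    (finrank ℂ (parabolicHoms ℂ (Gamma0 N) ℂ) : ℚ) ≤ 2 * ModularCurve.genusFormula N := by
  have h := finrank_parabolicHoms_counts N
  rw [h1, h2, h3, h4] at h
  have h' : ((6 * finrank ℂ (parabolicHoms ℂ (Gamma0 N) ℂ) + 3 * ModularCurve.nuTwo N +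
      4 * ModularCurve.nuThree N + 6 * ModularCurve.cuspCount N : ℕ) : ℚ) ≤
      ((ModularCurve.dedekindPsi N + 12 : ℕ) : ℚ) := by exact_mod_cast h
  push_cast at h'
  unfold ModularCurve.genusFormula
  linarith

end Concrete

end Fermat.Agent.S21.ParBound
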