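import Mathlib

/-!
# S21, piece ES2 (part 1): a maximum modulus principle on `Γ₀(N) \ ℍ ∪ cusps`

A holomorphic function `u` on the upper half plane whose modulus is `Γ₀(N)`-invariant and which
is periodic with a limit at `i∞` after translation by every element of `SL(2, ℤ)` is constant.
-/

set_option autoImplicit false

open UpperHalfPlane Filter Topology Function

open scoped MatrixGroups ModularForm Manifold Modular

noncomputable section

namespace Fermat.Agent.S21.InjMax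

open CongruenceSubgroup

/-- A function on `ℍ` invariant under `z ↦ h + z` gives a periodic function on `ℂ`. -/
theorem periodic_comp_ofComplex {U : ℍ → ℂ} {h : ℝ} (hper : ∀ z : ℍ, U (h +ᵥ z) = U z) :
    Function.Periodic (U ∘ ofComplex) h := by
  intro z
  by_cases hz : 0 < z.im
  · have hz' : 0 < (z + h).im := by simpa using hz
    simp only [Function.comp_apply]
    rw [ofComplex_apply_of_im_pos hz', ofComplex_apply_of_im_pos hz]
    have h1 : (⟨z + h, hz'⟩ : ℍ) = h +ᵥ (⟨z, hz⟩ : ℍ) := by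
      ext
      simp [add_comm]
    rw [h1, hper]
  · have hz' : ¬ 0 < (z + h).im := by simpa using hz
    simp only [Function.comp_apply]
    rw [ofComplex_apply_of_im_nonpos (not_lt.1 hz'), ofComplex_apply_of_im_nonpos (not_lt.1 hz)]

/-- If a periodic holomorphic function on `ℍ` has a limit `L` at `i∞` and its modulus is bounded
by `‖L‖`, then it is constant (maximum modulus principle in the `q`-coordinate). -/
theorem eq_of_norm_le_limit {U : ℍ → ℂ} (hU : MDiff U) {h : ℝ} (hh : 0 < h)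
    (hper : ∀ z : ℍ, U (h +ᵥ z) = U z) {L : ℂ} (hL : Tendsto U atImInfty (𝓝 L))
    (hle : ∀ z : ℍ, ‖U z‖ ≤ ‖L‖) (z : ℍ) : U z = L := by
  set f : ℂ → ℂ := U ∘ ofComplex with hf
  have hfper : Function.Periodic f h := periodic_comp_ofComplex hper
  have hdiff : ∀ w : ℂ, 0 < w.im → DifferentiableAt ℂ f w := fun w hw =>
    ((UpperHalfPlane.mdifferentiable_iff.1 hU) w hw).differentiableAt
      (isOpen_upperHalfPlaneSet.mem_nhds hw)
  have hev : ∀ᶠ w in comap Complex.im atTop, DifferentiableAt ℂ f w := by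
    have h1 : {w : ℂ | 0 < w.im} ∈ comap Complex.im atTop :=
      preimage_mem_comap (Ioi_mem_atTop 0)
    filter_upwards [h1] with w hw using hdiff w hw
  have hlimf : Tendsto f (comap Complex.im atTop) (𝓝 L) := hL.comp tendsto_comap_im_ofComplex
  have hbd : BoundedAtFilter (comap Complex.im atTop) f := hlimf.isBigO_one ℝ
  have : (comap Complex.im atTop).NeBot :=
    Filter.NeBot.comap_of_surj atTop_neBot (fun y => ⟨⟨0, y⟩, rfl⟩)
  have h0 : Function.Periodic.cuspFunction h f 0 = L :=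
    tendsto_nhds_unique (Function.Periodic.tendsto_at_I_inf hh hfper hev hbd) hlimf
  have hdiffc : DifferentiableOn ℂ (Function.Periodic.cuspFunction h f) (Metric.ball 0 1) := by
    intro q hq
    apply DifferentiableAt.differentiableWithinAt
    by_cases hq0 : q = 0
    · rw [hq0]
      exact Function.Periodic.differentiableAt_cuspFunction_zero hh hfper hev hbd
    · rw [← Function.Periodic.qParam_right_inv hh.ne' hq0]
      apply Function.Periodic.differentiableAt_cuspFunction hh.ne' hfper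
      apply hdiff
      rw [Function.Periodic.im_invQParam]
      have hq1 : ‖q‖ < 1 := by simpa using hq
      have hlog : Real.log ‖q‖ < 0 := Real.log_neg (norm_pos_iff.2 hq0) hq1
      have hpi : 0 < 2 * Real.pi := by positivity
      have h2 : -h / (2 * Real.pi) < 0 := div_neg_of_neg_of_pos (neg_lt_zero.2 hh) hpi
      exact mul_pos_of_neg_of_neg h2 hlog
  have hmax : IsMaxOn (norm ∘ Function.Periodic.cuspFunction h f) (Metric.ball 0 1) 0 := by
    rw [isMaxOn_iff]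
    intro q _
    simp only [Function.comp_apply]
    rw [h0]
    by_cases hq0 : q = 0
    · rw [hq0, h0]
    · rw [Function.Periodic.cuspFunction_eq_of_nonzero _ _ hq0]
      exact hle _
  have hconst := Complex.eqOn_of_isPreconnected_of_isMaxOn_norm
    (convex_ball (0 : ℂ) 1).isPreconnected Metric.isOpen_ball hdiffc
    (Metric.mem_ball_self one_pos) hmax
  have hz : Function.Periodic.qParam h z ∈ Metric.ball (0 : ℂ) 1 := by
    rw [mem_ball_zero_iff]
    exact Function.Periodic.norm_qParam_lt_one hh z.im_pos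
  have h3 := hconst hz
  rw [Function.Periodic.eq_cuspFunction hh.ne' hfper] at h3
  simp only [Function.const_apply, h0] at h3
  rw [← h3, hf, Function.comp_apply, ofComplex_apply]


/-- Points of the standard fundamental domain have imaginary part at least `1/2`. -/
theorem half_le_im_of_mem_fd {w : ℍ} (hw : w ∈ 𝒟) : 1 / 2 ≤ w.im := by
  obtain ⟨h1, h2⟩ := hw
  have h3 : Complex.normSq (w : ℂ) = w.re * w.re + w.im * w.im := Complex.normSq_apply _
  rw [h3] at h1
  have h4 : w.re * w.re ≤ 1 / 4 := by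
    have := abs_le.1 h2
    nlinarith [this.1, this.2]
  have h5 : 0 < w.im := w.im_pos
  nlinarith

/-- Truncated vertical strips are compact in `ℍ`. -/
theorem isCompact_strip (B : ℝ) :
    IsCompact {w : ℍ | |w.re| ≤ 1 / 2 ∧ 1 / 2 ≤ w.im ∧ w.im ≤ B} := by
  have hR : IsCompact (Set.Icc (-(1 / 2) : ℝ) (1 / 2) ×ℂ Set.Icc (1 / 2 : ℝ) B) :=
    isCompact_Icc.reProdIm isCompact_Icc
  have hsub : (Set.Icc (-(1 / 2) : ℝ) (1 / 2) ×ℂ Set.Icc (1 / 2 : ℝ) B) ⊆
      Set.range ((↑) : ℍ → ℂ) := by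
    intro z hz
    have hz2 : (1 / 2 : ℝ) ≤ z.im := hz.2.1
    exact ⟨⟨z, by linarith⟩, rfl⟩
  have h1 := (isEmbedding_coe.isInducing.isCompact_preimage_iff hsub).2 hR
  convert h1 using 1
  ext w
  simp only [Set.mem_ofPred_eq, Set.mem_preimage, Complex.mem_reProdIm, Set.mem_Icc, abs_le]
  rfl

/-- **Maximum modulus principle on `X₀(N)`**: a holomorphic function on `ℍ` with
`Γ₀(N)`-invariant modulus which, after translation by every `δ ∈ SL(2, ℤ)`, is `N`-periodic with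
a limit at `i∞`, is constant. -/
theorem exists_const (N : ℕ) [NeZero N] (u : ℍ → ℂ) (hu : MDiff u)
    (hinv : ∀ γ : SL(2, ℤ), γ ∈ Gamma0 N → ∀ z : ℍ, ‖u (γ • z)‖ = ‖u z‖)
    (hper : ∀ (δ : SL(2, ℤ)) (z : ℍ), u (δ • ((N : ℝ) +ᵥ z)) = u (δ • z))
    (hlim : ∀ δ : SL(2, ℤ), ∃ L : ℂ, Tendsto (fun w : ℍ => u (δ • w)) atImInfty (𝓝 L)) :
    ∃ c : ℂ, ∀ z : ℍ, u z = c := by
  classical
  have hfin : Finite (SL(2, ℤ) ⧸ Gamma0 N) := Subgroup.finite_quotient_of_finiteIndex
  have hne : Nonempty (SL(2, ℤ) ⧸ Gamma0 N) := ⟨QuotientGroup.mk 1⟩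
  set δ : SL(2, ℤ) ⧸ Gamma0 N → SL(2, ℤ) := fun q => (Quotient.out q)⁻¹ with hδ
  choose L hL using hlim
  -- every point is equivalent to a point of the fundamental domain, up to a coset representative
  have hred : ∀ z : ℍ, ∃ q : SL(2, ℤ) ⧸ Gamma0 N, ∃ w ∈ 𝒟, ‖u z‖ = ‖u (δ q • w)‖ := by
    intro z
    obtain ⟨g, hg⟩ := ModularGroup.exists_smul_mem_fd z
    obtain ⟨γ, hγ⟩ := QuotientGroup.mk_out_eq_mul (Gamma0 N) g
    refine ⟨QuotientGroup.mk g, g • z, hg, ?_⟩
    have h1 : δ (QuotientGroup.mk g) • (g • z) = ((γ : SL(2, ℤ)))⁻¹ • z := by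
      show (Quotient.out (QuotientGroup.mk g : SL(2, ℤ) ⧸ Gamma0 N))⁻¹ • (g • z) = _
      rw [hγ, mul_inv_rev, mul_smul, inv_smul_smul]
    rw [h1, hinv _ (inv_mem γ.2)]
  have hsmul : ∀ g : SL(2, ℤ), Continuous fun w : ℍ => g • w := fun g =>
    continuous_const_smul (Matrix.SpecialLinearGroup.mapGL ℝ g)
  have hcont : ∀ q : SL(2, ℤ) ⧸ Gamma0 N, Continuous fun w : ℍ => ‖u (δ q • w)‖ := fun q =>
    continuous_norm.comp (hu.continuous.comp (hsmul (δ q)))
  have hmd : ∀ g : SL(2, ℤ), MDiff (fun w : ℍ => u (g • w)) := by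
    intro g
    have h1 : (fun w : ℍ => u (g • w)) = u ∣[(0 : ℤ)] g := by
      ext w
      rw [ModularForm.SL_slash_apply]
      simp
    rw [h1]
    exact hu.slash 0 (Matrix.SpecialLinearGroup.mapGL ℝ g)
  by_cases hA : ∃ q : SL(2, ℤ) ⧸ Gamma0 N, ∀ w : ℍ, ‖u (δ q • w)‖ ≤ ‖L (δ q)‖
  · -- the supremum is the limit at a cusp: constant by the `q`-coordinate argument
    obtain ⟨q, hq⟩ := hA
    refine ⟨L (δ q), fun z => ?_⟩
    have h1 := eq_of_norm_le_limit (hmd (δ q)) (h := (N : ℝ))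
      (Nat.cast_pos.2 (NeZero.pos N)) (fun w => hper (δ q) w) (hL (δ q)) hq ((δ q)⁻¹ • z)
    simpa using h1
  · -- otherwise the supremum is attained inside `ℍ`
    push Not at hA
    choose wq hwq using hA
    obtain ⟨q₀, hq₀⟩ := Finite.exists_max (fun q => ‖u (δ q • wq q)‖)
    set m := ‖u (δ q₀ • wq q₀)‖ with hm
    have hLm : ∀ q, ‖L (δ q)‖ < m := fun q => (hwq q).trans_le (hq₀ q)
    have htail : ∀ q : SL(2, ℤ) ⧸ Gamma0 N, ∃ B : ℝ, ∀ w : ℍ, B ≤ w.im → ‖u (δ q • w)‖ < m := by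
      intro q
      have h1 : Tendsto (fun w : ℍ => ‖u (δ q • w)‖) atImInfty (𝓝 ‖L (δ q)‖) := (hL (δ q)).norm
      have h2 : ∀ᶠ w in atImInfty, ‖u (δ q • w)‖ < m := h1.eventually (gt_mem_nhds (hLm q))
      exact (UpperHalfPlane.atImInfty_mem _).1 h2
    choose Bq hBq using htail
    obtain ⟨B, hB⟩ : ∃ B : ℝ, ∀ q, Bq q ≤ B := by
      obtain ⟨q₁, hq₁⟩ := Finite.exists_max Bq
      exact ⟨Bq q₁, hq₁⟩
    have hKc := isCompact_strip B
    have hDK : ∀ w ∈ 𝒟, w.im ≤ B → w ∈ {w : ℍ | |w.re| ≤ 1 / 2 ∧ 1 / 2 ≤ w.im ∧ w.im ≤ B} :=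
      fun w hw hwB => ⟨hw.2, half_le_im_of_mem_fd hw, hwB⟩
    obtain ⟨q₁, w₁, hw₁, hzw₁⟩ := hred (δ q₀ • wq q₀)
    have hw₁B : w₁.im ≤ B := by
      by_contra hcon
      push Not at hcon
      have h1 := hBq q₁ w₁ ((hB q₁).trans hcon.le)
      rw [← hzw₁] at h1
      exact lt_irrefl _ h1
    have hw₁K := hDK w₁ hw₁ hw₁B
    have hmaxK : ∀ q : SL(2, ℤ) ⧸ Gamma0 N,
        ∃ x ∈ {w : ℍ | |w.re| ≤ 1 / 2 ∧ 1 / 2 ≤ w.im ∧ w.im ≤ B},
          ∀ w ∈ {w : ℍ | |w.re| ≤ 1 / 2 ∧ 1 / 2 ≤ w.im ∧ w.im ≤ B},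
            ‖u (δ q • w)‖ ≤ ‖u (δ q • x)‖ := fun q => by
      obtain ⟨x, hx, hxmax⟩ := hKc.exists_isMaxOn ⟨w₁, hw₁K⟩ (hcont q).continuousOn
      exact ⟨x, hx, fun w hw => isMaxOn_iff.1 hxmax w hw⟩
    choose xq hxqK hxq using hmaxK
    obtain ⟨q₂, hq₂⟩ := Finite.exists_max (fun q => ‖u (δ q • xq q)‖)
    have hm2 : m ≤ ‖u (δ q₂ • xq q₂)‖ := by
      rw [hm, hzw₁]
      exact (hxq q₁ w₁ hw₁K).trans (hq₂ q₁)
    have hglobal : ∀ z : ℍ, ‖u z‖ ≤ ‖u (δ q₂ • xq q₂)‖ := by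
      intro z
      obtain ⟨q, w, hw, hzw⟩ := hred z
      rw [hzw]
      by_cases hwB : w.im ≤ B
      · exact (hxq q w (hDK w hw hwB)).trans (hq₂ q)
      · push Not at hwB
        exact ((hBq q w ((hB q).trans hwB.le)).le).trans hm2
    -- maximum modulus principle on `ℍ`
    refine ⟨u (δ q₂ • xq q₂), fun z => ?_⟩
    have hmaxon : IsMaxOn (norm ∘ (u ∘ ofComplex)) {z : ℂ | 0 < z.im}
        ((δ q₂ • xq q₂ : ℍ) : ℂ) := by
      rw [isMaxOn_iff]
      intro w _
      simp only [Function.comp_apply, ofComplex_apply]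
      exact hglobal _
    have h1 := Complex.eqOn_of_isPreconnected_of_isMaxOn_norm
      (convex_halfSpace_im_gt 0).isPreconnected isOpen_upperHalfPlaneSet
      (UpperHalfPlane.mdifferentiable_iff.1 hu) (δ q₂ • xq q₂ : ℍ).im_pos hmaxon z.im_pos
    simpa using h1

end Fermat.Agent.S21.InjMax

end
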