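import Fermat.Prelude.Def_ModularCurve_PeriodHomPair
import Fermat.Agent.S21.InjMax

/-!
# S21, piece ES2: joint injectivity of the period maps

If `(1 + ι) per(f) + (1 - ι) per(g) = 0` for two weight 2 cusp forms on `Γ₀(N)`, then
`f = g = 0`.
-/

set_option autoImplicit false

open UpperHalfPlane Filter Topology Function CongruenceSubgroup ModularCurve ModularCurve.Period

open scoped MatrixGroups ModularForm Manifold ComplexConjugate

noncomputable section

namespace Fermat.Agent.S21.Inj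

/-- The anti-holomorphic involution `z ↦ -z̄` of the upper half plane. -/
def refl (z : ℍ) : ℍ := ⟨-(conj (z : ℂ)), by simpa using z.im_pos⟩

@[simp] theorem coe_refl (z : ℍ) : ((refl z : ℍ) : ℂ) = -(conj (z : ℂ)) := rfl

theorem refl_refl (z : ℍ) : refl (refl z) = z := by
  ext
  simp

theorem im_refl (z : ℍ) : (refl z).im = z.im := by
  show (-(conj (z : ℂ))).im = (z : ℂ).im
  simp

theorem jConjSL_smul_refl (γ : SL(2, ℤ)) (z : ℍ) : jConjSL γ • refl z = refl (γ • z) := by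
  ext1
  rw [coe_specialLinearGroup_apply, coe_refl, coe_refl, coe_specialLinearGroup_apply]
  simp only [jConjSL_coe, jConjMat_apply_zero_zero, jConjMat_apply_zero_one,
    jConjMat_apply_one_zero, jConjMat_apply_one_one, map_div₀, map_add, map_mul,
    Complex.conj_ofReal, algebraMap_int_eq, eq_intCast, Int.cast_neg, Complex.ofReal_neg]
  rw [← neg_div]
  congr 1 <;> ring


theorem tendsto_refl : Tendsto refl atImInfty atImInfty := by
  rw [atImInfty, tendsto_comap_iff]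
  have h : UpperHalfPlane.im ∘ refl = UpperHalfPlane.im := funext im_refl
  rw [h]
  exact tendsto_comap

theorem tendsto_vadd (c : ℝ) : Tendsto (fun z : ℍ => c +ᵥ z) atImInfty atImInfty := by
  rw [atImInfty, tendsto_comap_iff]
  have h : UpperHalfPlane.im ∘ (fun z : ℍ => c +ᵥ z) = UpperHalfPlane.im :=
    funext fun z => vadd_im c z
  rw [h]
  exact tendsto_comap

theorem refl_ofComplex {w : ℂ} (hw : 0 < w.im) : refl (ofComplex w) = ofComplex (-(conj w)) := by
  have hw' : 0 < (-(conj w)).im := by simpa using hw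
  rw [ofComplex_apply_of_im_pos hw, ofComplex_apply_of_im_pos hw']
  rfl

theorem refl_vadd (c : ℝ) (z : ℍ) : refl z = c +ᵥ refl (c +ᵥ z) := by
  ext1
  simp [coe_vadd]

theorem conj_T_zpow_mem_Gamma0 (N : ℕ) (δ : SL(2, ℤ)) :
    δ * ModularGroup.T ^ (N : ℤ) * δ⁻¹ ∈ Gamma0 N := by
  have h1 : ModularGroup.T ^ (N : ℤ) ∈ Gamma N := by
    simpa using ModularGroup_T_pow_mem_Gamma (N : ℤ) (N : ℤ) dvd_rfl
  have h2 : δ * ModularGroup.T ^ (N : ℤ) * δ⁻¹ ∈ Gamma N := (Gamma_normal N).conj_mem _ h1 δ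
  rw [Gamma_mem] at h2
  rw [Gamma0_mem]
  exact h2.2.2.1

/-- An equivariant primitive with limits at all cusps is `N`-periodic after translation by any
element of `SL(2, ℤ)`: its periods along the parabolic elements `δ T^N δ⁻¹` vanish. -/
theorem periodic_of_limits {N : ℕ} {F : ℍ → ℂ} (hF : IsEquivariantPrimitive (Gamma0 N) F)
    (hlim : ∀ δ : SL(2, ℤ), ∃ L : ℂ, Tendsto (fun w : ℍ => F (δ • w)) atImInfty (𝓝 L))
    (δ : SL(2, ℤ)) (z : ℍ) : F (δ • ((N : ℝ) +ᵥ z)) = F (δ • z) := by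
  set γ : Gamma0 N := ⟨δ * ModularGroup.T ^ (N : ℤ) * δ⁻¹, conj_T_zpow_mem_Gamma0 N δ⟩ with hγ
  have hsm : ∀ w : ℍ, ((γ : SL(2, ℤ)) • (δ • w)) = δ • ((N : ℝ) +ᵥ w) := by
    intro w
    show (δ * ModularGroup.T ^ (N : ℤ) * δ⁻¹) • (δ • w) = _
    rw [mul_smul, mul_smul, inv_smul_smul, modular_T_zpow_smul]
    simp
  have hc : ∀ w : ℍ, F (δ • ((N : ℝ) +ᵥ w)) - F (δ • w) = hF.period γ := by
    intro w
    rw [← hsm w]
    exact hF.sub_eq_period γ (δ • w)
  obtain ⟨L, hL⟩ := hlim δ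
  have h1 : Tendsto (fun w : ℍ => F (δ • ((N : ℝ) +ᵥ w)) - F (δ • w)) atImInfty (𝓝 (L - L)) :=
    (hL.comp (tendsto_vadd (N : ℝ))).sub hL
  have h2 : Tendsto (fun w : ℍ => F (δ • ((N : ℝ) +ᵥ w)) - F (δ • w)) atImInfty
      (𝓝 (hF.period γ)) := by
    simp only [hc]
    exact tendsto_const_nhds
  have h3 : hF.period γ = L - L := tendsto_nhds_unique h2 h1
  have h4 := hc z
  rw [h3, sub_self] at h4
  exact sub_eq_zero.1 h4

/-- A holomorphic function on `ℍ` whose real part is `Γ₀(N)`-invariant and which is periodic with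
a limit at every cusp has vanishing derivative. -/
theorem deriv_eq_zero_of_re_invariant (N : ℕ) [NeZero N] (G G' : ℍ → ℂ)
    (hd : ∀ τ : ℍ, HasDerivAt (G ∘ ofComplex) (G' τ) ↑τ)
    (hinv : ∀ γ : SL(2, ℤ), γ ∈ Gamma0 N → ∀ z : ℍ, (G (γ • z) - G z).re = 0)
    (hper : ∀ (δ : SL(2, ℤ)) (z : ℍ), G (δ • ((N : ℝ) +ᵥ z)) = G (δ • z))
    (hlim : ∀ δ : SL(2, ℤ), ∃ L : ℂ, Tendsto (fun w : ℍ => G (δ • w)) atImInfty (𝓝 L))
    (τ : ℍ) : G' τ = 0 := by
  set u : ℍ → ℂ := fun z => Complex.exp (G z) with hu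
  have hud : ∀ τ : ℍ, HasDerivAt (u ∘ ofComplex) (Complex.exp (G τ) * G' τ) ↑τ := by
    intro τ
    have h1 := (hd τ).cexp
    simp only [Function.comp_apply, ofComplex_apply] at h1
    exact h1
  have humd : MDiff u := by
    rw [UpperHalfPlane.mdifferentiable_iff]
    intro w hw
    have h1 := hud ⟨w, hw⟩
    exact h1.differentiableAt.differentiableWithinAt
  obtain ⟨c, hc⟩ := InjMax.exists_const N u humd
    (fun γ hγ z => by
      simp only [hu, Complex.norm_exp]
      have h1 := hinv γ hγ z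
      rw [Complex.sub_re] at h1
      rw [sub_eq_zero.1 h1])
    (fun δ z => by simp only [hu, hper δ z])
    (fun δ => by
      obtain ⟨L, hL⟩ := hlim δ
      exact ⟨Complex.exp L, (Complex.continuous_exp.tendsto L).comp hL⟩)
  have h2 : u ∘ ofComplex = fun _ => c := funext fun w => hc _
  have h3 := hud τ
  rw [h2] at h3
  have h4 := h3.unique (hasDerivAt_const (τ : ℂ) c)
  exact (mul_eq_zero.1 h4).resolve_left (Complex.exp_ne_zero _)

/-- **Joint injectivity of the period maps** (Eichler–Shimura, injectivity part): if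
`(1 + ι) per(f) + (1 - ι) per(g) = 0` then `f = g = 0`. -/
theorem eq_zero_of_pair {N : ℕ} [NeZero N] (f g : CuspForm (Gamma0 N) 2) (Ff Fg : ℍ → ℂ)
    (hf : ModularCurve.HasEquivariantPrimitive N f Ff)
    (hg : ModularCurve.HasEquivariantPrimitive N g Fg)
    (h : ((LinearMap.id : (Additive (Gamma0 N) →+ ℂ) →ₗ[ℂ] (Additive (Gamma0 N) →+ ℂ)) +
        ModularCurve.Period.charInvolution N ℂ ℂ) hf.2.2.1.periodHom +
      ((LinearMap.id : (Additive (Gamma0 N) →+ ℂ) →ₗ[ℂ] (Additive (Gamma0 N) →+ ℂ)) -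
        ModularCurve.Period.charInvolution N ℂ ℂ) hg.2.2.1.periodHom = 0) :
    f = 0 ∧ g = 0 := by
  have hfd := hf.1
  have hgd := hg.1
  have hfe := hf.2.2.1
  have hge := hg.2.2.1
  have hfl := hf.2.2.2
  have hgl := hg.2.2.2
  -- the relation between the periods
  have hrel : ∀ γ : Gamma0 N, hfe.period γ + hfe.period (jConjGamma0 N γ) +
      (hge.period γ - hge.period (jConjGamma0 N γ)) = 0 := by
    intro γ
    have h1 := DFunLike.congr_fun h (Additive.ofMul γ)
    simpa using h1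
  set A : ℍ → ℂ := fun z => Ff z + Fg z with hA
  set Kt : ℍ → ℂ := fun z => conj (Ff (refl z) - Fg (refl z)) with hKt
  set A' : ℍ → ℂ := fun τ => f τ + g τ with hA'
  set Kt' : ℍ → ℂ := fun τ => -conj (f (refl τ) - g (refl τ)) with hKt'
  -- derivatives
  have hAd : ∀ τ : ℍ, HasDerivAt (A ∘ ofComplex) (A' τ) ↑τ := fun τ => (hfd τ).add (hgd τ)
  have hKd : ∀ τ : ℍ, HasDerivAt (Kt ∘ ofComplex) (Kt' τ) ↑τ := by
    intro τ
    set φ : ℂ → ℂ := fun w => Ff (ofComplex w) - Fg (ofComplex w) with hφ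
    have h1 : HasDerivAt φ (f (refl τ) - g (refl τ)) (-(conj (τ : ℂ))) :=
      (hfd (refl τ)).sub (hgd (refl τ))
    have h2 : HasDerivAt (φ ∘ Neg.neg) ((f (refl τ) - g (refl τ)) * (-1)) (conj (τ : ℂ)) :=
      h1.comp (conj (τ : ℂ)) (hasDerivAt_neg (conj (τ : ℂ)))
    have h3 := h2.conj_conj
    rw [Complex.conj_conj] at h3
    have h4 : Kt ∘ ofComplex =ᶠ[𝓝 (τ : ℂ)] (conj ∘ (φ ∘ Neg.neg) ∘ conj) := by
      filter_upwards [isOpen_upperHalfPlaneSet.mem_nhds τ.im_pos] with w hw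
      simp only [Function.comp_apply, hKt, hφ]
      rw [refl_ofComplex hw]
    have h5 := h3.congr_of_eventuallyEq h4
    have h6 : conj ((f (refl τ) - g (refl τ)) * -1) = Kt' τ := by
      simp only [hKt', map_neg, mul_neg, mul_one]
    rw [h6] at h5
    exact h5
  -- invariance of `A + conj Kt`
  have hH : ∀ γ : SL(2, ℤ), γ ∈ Gamma0 N → ∀ z : ℍ,
      (A (γ • z) - A z) + conj (Kt (γ • z) - Kt z) = 0 := by
    intro γ hγ z
    have e1 := hfe.sub_eq_period ⟨γ, hγ⟩ z
    have e2 := hge.sub_eq_period ⟨γ, hγ⟩ z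
    have e3 := hfe.sub_eq_period (jConjGamma0 N ⟨γ, hγ⟩) (refl z)
    have e4 := hge.sub_eq_period (jConjGamma0 N ⟨γ, hγ⟩) (refl z)
    rw [jConjGamma0_coe] at e3 e4
    simp only [jConjSL_smul_refl] at e3 e4
    have e5 := hrel ⟨γ, hγ⟩
    simp only [hA, hKt, map_sub, Complex.conj_conj]
    linear_combination e1 + e2 + e3 - e4 + e5
  -- periodicity and limits
  have hfper := periodic_of_limits hfe hfl
  have hgper := periodic_of_limits hge hgl
  have hAper : ∀ (δ : SL(2, ℤ)) (z : ℍ), A (δ • ((N : ℝ) +ᵥ z)) = A (δ • z) := fun δ z => by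
    simp only [hA, hfper δ z, hgper δ z]
  have hKper : ∀ (δ : SL(2, ℤ)) (z : ℍ), Kt (δ • ((N : ℝ) +ᵥ z)) = Kt (δ • z) := fun δ z => by
    simp only [hKt, ← jConjSL_smul_refl]
    rw [refl_vadd (N : ℝ) z, hfper, hgper]
  have hAlim : ∀ δ : SL(2, ℤ), ∃ L : ℂ, Tendsto (fun w : ℍ => A (δ • w)) atImInfty (𝓝 L) :=
    fun δ => by
      obtain ⟨L1, hL1⟩ := hfl δ
      obtain ⟨L2, hL2⟩ := hgl δ
      exact ⟨L1 + L2, hL1.add hL2⟩
  have hKlim : ∀ δ : SL(2, ℤ), ∃ L : ℂ, Tendsto (fun w : ℍ => Kt (δ • w)) atImInfty (𝓝 L) :=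
    fun δ => by
      obtain ⟨L1, hL1⟩ := hfl (jConjSL δ)
      obtain ⟨L2, hL2⟩ := hgl (jConjSL δ)
      refine ⟨conj (L1 - L2), ?_⟩
      have h1 := ((hL1.comp tendsto_refl).sub (hL2.comp tendsto_refl))
      have h2 := (Complex.continuous_conj.tendsto (L1 - L2)).comp h1
      refine h2.congr fun w => ?_
      simp only [Function.comp_apply, hKt, jConjSL_smul_refl]
  -- the two holomorphic functions with invariant real part
  have key1 : ∀ τ : ℍ, A' τ + Kt' τ = 0 := by
    apply deriv_eq_zero_of_re_invariant N (fun z => A z + Kt z) (fun τ => A' τ + Kt' τ)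
    · exact fun τ => (hAd τ).add (hKd τ)
    · intro γ hγ z
      have e := hH γ hγ z
      have e1 := congrArg Complex.re e
      simp only [Complex.add_re, Complex.sub_re, Complex.conj_re, Complex.zero_re] at e1 ⊢
      linarith
    · intro δ z
      simp only [hAper δ z, hKper δ z]
    · intro δ
      obtain ⟨L1, hL1⟩ := hAlim δ
      obtain ⟨L2, hL2⟩ := hKlim δ
      exact ⟨L1 + L2, hL1.add hL2⟩
  have key2 : ∀ τ : ℍ, -Complex.I * (A' τ - Kt' τ) = 0 := by
    apply deriv_eq_zero_of_re_invariant N (fun z => -Complex.I * (A z - Kt z))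
      (fun τ => -Complex.I * (A' τ - Kt' τ))
    · exact fun τ => ((hAd τ).sub (hKd τ)).const_mul (-Complex.I)
    · intro γ hγ z
      have e := hH γ hγ z
      have e1 := congrArg Complex.im e
      simp only [Complex.add_im, Complex.sub_im, Complex.conj_im, Complex.zero_im] at e1
      have e2 : -Complex.I * (A (γ • z) - Kt (γ • z)) - -Complex.I * (A z - Kt z) =
          -Complex.I * ((A (γ • z) - A z) - (Kt (γ • z) - Kt z)) := by ring
      rw [e2]
      simp only [Complex.mul_re, Complex.neg_re, Complex.neg_im, Complex.I_re, Complex.I_im,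
        Complex.sub_re, Complex.sub_im]
      linarith
    · intro δ z
      simp only [hAper δ z, hKper δ z]
    · intro δ
      obtain ⟨L1, hL1⟩ := hAlim δ
      obtain ⟨L2, hL2⟩ := hKlim δ
      exact ⟨-Complex.I * (L1 - L2), (hL1.sub hL2).const_mul (-Complex.I)⟩
  have key2' : ∀ τ : ℍ, A' τ - Kt' τ = 0 := fun τ =>
    (mul_eq_zero.1 (key2 τ)).resolve_left (neg_ne_zero.2 Complex.I_ne_zero)
  have hA0 : ∀ τ : ℍ, f τ + g τ = 0 := fun τ => by
    have e1 := key1 τ
    have e2 := key2' τ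
    have : A' τ = 0 := by linear_combination (1 / 2 : ℂ) * e1 + (1 / 2 : ℂ) * e2
    exact this
  have hK0 : ∀ τ : ℍ, f τ - g τ = 0 := fun τ => by
    have e1 := key1 (refl τ)
    have e2 := key2' (refl τ)
    have e3 : Kt' (refl τ) = 0 := by linear_combination (1 / 2 : ℂ) * e1 - (1 / 2 : ℂ) * e2
    simp only [hKt', refl_refl, neg_eq_zero, map_eq_zero] at e3
    exact e3
  constructor
  · ext τ
    have e1 := hA0 τ
    have e2 := hK0 τ
    show f τ = 0
    linear_combination (1 / 2 : ℂ) * e1 + (1 / 2 : ℂ) * e2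
  · ext τ
    have e1 := hA0 τ
    have e2 := hK0 τ
    show g τ = 0
    linear_combination (1 / 2 : ℂ) * e1 - (1 / 2 : ℂ) * e2


/-- Injectivity of `periodHomPair`, given the existence of equivariant primitives and the
linearity of the period map (piece ES1). -/
theorem periodHomPair_injective (N : ℕ) [NeZero N]
    (hex : ∀ f : CuspForm (Gamma0 N) 2, ∃ F : ℍ → ℂ, ModularCurve.HasEquivariantPrimitive N f F)
    (hlin : ModularCurve.ExistsPeriodMapLinear N) :
    Function.Injective (ModularCurve.periodHomPair N) := by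
  obtain ⟨pml, hpml, hdef⟩ := ModularCurve.periodHomPair_def N hlin
  rw [hdef, ← LinearMap.ker_eq_bot, LinearMap.ker_eq_bot']
  rintro ⟨f, g⟩ hfg
  obtain ⟨F, hF⟩ := hex f
  obtain ⟨G, hG⟩ := hex g
  obtain ⟨F₀, hF₀, hfF⟩ := ModularCurve.periodMap_def N f hF
  obtain ⟨G₀, hG₀, hgG⟩ := ModularCurve.periodMap_def N g hG
  have h := eq_zero_of_pair f g F₀ G₀ hF₀ hG₀ (by
    rw [LinearMap.coprod_apply] at hfg
    simp only [LinearMap.comp_apply, hpml, hfF, hgG] at hfg
    exact hfg)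
  exact Prod.ext h.1 h.2

end Fermat.Agent.S21.Inj

end
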