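import Mathlib
import Fermat.Prelude.Def_ModularCurve_PeriodMap
import Fermat.Prelude.Def_ModularCurve_GenusNumerics
import Fermat.Agent.S21.ParBound
import Fermat.Agent.S24.CombBasic
import Fermat.Agent.S24.CombIndex
import Fermat.Agent.S24.CombCusp

/-!
# ES3, final form: `dim_ℂ parabolicHoms (Γ₀(N)) ≤ 2 · genusFormula N`

`ParBound.lean` (cocycle / Shapiro count) combined with the coset counts of
`Fermat/Agent/S24/Comb*.lean`.
-/

namespace Fermat.Agent.S21.ParBound

open CongruenceSubgroup ModularCurve.Period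

open scoped MatrixGroups

/-- the number of cosets of `Γ₀(N)` -/
theorem card_quotient_Gamma0 (N : ℕ) [NeZero N] :
    Nat.card (SL(2, ℤ) ⧸ Gamma0 N) = ModularCurve.dedekindPsi N := by
  rw [← Fermat.Agent.S24.Comb.index_Gamma0 N, Subgroup.index]

/-- **ES3**: the space of parabolic homomorphisms `Γ₀(N) → ℂ` is finite-dimensional of
dimension at most `2 · genusFormula N`. -/
theorem finrank_parabolicHoms_le (N : ℕ) [NeZero N] :
    FiniteDimensional ℂ (parabolicHoms ℂ (Gamma0 N) ℂ) ∧
      (Module.finrank ℂ (parabolicHoms ℂ (Gamma0 N) ℂ) : ℚ) ≤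
        2 * ModularCurve.genusFormula N := by
  have hfin : Module.Finite ℂ (Additive (Gamma0 N) →+ ℂ) := finite_addHom N
  exact ⟨inferInstance, finrank_parabolicHoms_le_of_counts N (card_quotient_Gamma0 N)
    (Fermat.Agent.S24.Comb.card_fixedBy_S N) (Fermat.Agent.S24.Comb.card_fixedBy_ST N)
    (Fermat.Agent.S24.Comb.card_orbits_T N)⟩

end Fermat.Agent.S21.ParBound
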