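/-
S21 (Eichler--Shimura), piece ES1b PARAB.

* `exists_conj_T_zpow`: an element of `SL(2, ℤ)` whose trace squares to `4` is, up to sign,
  conjugate in `SL(2, ℤ)` to a power of `T`.
* `period_eq_zero`: the period of an equivariant primitive (in the Prelude sense
  `ModularCurve.HasEquivariantPrimitive`) vanishes on such elements of `Γ₀(N)`.
* `periodMap_mem_parabolicHoms`, `range_periodHomPair_le`: the period map and the paired period
  map take values in the parabolic homomorphisms (unconditionally: the junk branches of the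
  Prelude definitions are `0`).
-/
import Mathlib
import Fermat.Prelude.Def_ModularCurve_PeriodHomPair

set_option autoImplicit false

open UpperHalfPlane CongruenceSubgroup Filter Topology ModularCurve ModularCurve.Period
open scoped MatrixGroups

namespace Fermat.Agent.S21.Parab

/-- Translation by a power of `T` preserves the filter `atImInfty`. -/
theorem tendsto_T_zpow_smul (m : ℤ) :
    Tendsto (fun w : ℍ => ModularGroup.T ^ m • w) atImInfty atImInfty := by
  rw [atImInfty, tendsto_comap_iff]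
  have : (UpperHalfPlane.im ∘ fun w : ℍ => ModularGroup.T ^ m • w) = UpperHalfPlane.im := by
    funext w
    exact ModularGroup.im_T_zpow_smul w m
  rw [this]
  exact tendsto_comap

/-- A matrix of `SL(2, ℤ)` with trace `2` is conjugate to a power of `T`. -/
theorem exists_conj_T_zpow_of_trace_eq_two (γ : SL(2, ℤ)) (h : γ 0 0 + γ 1 1 = 2) :
    ∃ (σ : SL(2, ℤ)) (m : ℤ), γ = σ * ModularGroup.T ^ m * σ⁻¹ := by
  have hdet : γ 0 0 * γ 1 1 - γ 0 1 * γ 1 0 = 1 := by
    have := γ.det_coe
    rw [Matrix.det_fin_two] at this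
    exact this
  -- a coprime integer vector fixed by `γ`
  obtain ⟨p, r, hpr, h1, h2⟩ : ∃ p r : ℤ, IsCoprime p r ∧
      γ 0 0 * p + γ 0 1 * r = p ∧ γ 1 0 * p + γ 1 1 * r = r := by
    by_cases hc : γ 1 0 = 0
    · refine ⟨1, 0, isCoprime_one_left, ?_, ?_⟩
      · have h3 : (γ 0 0 - 1) ^ 2 = 0 := by
          rw [hc] at hdet
          linear_combination (γ 0 0) * h - hdet
        have h4 : γ 0 0 - 1 = 0 := by
          exact pow_eq_zero_iff (n := 2) (by norm_num) |>.mp h3
        linarith
      · rw [hc]; ring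
    · obtain ⟨p, hp⟩ := Int.gcd_dvd_left (γ 0 0 - 1) (γ 1 0)
      obtain ⟨r, hr⟩ := Int.gcd_dvd_right (γ 0 0 - 1) (γ 1 0)
      set g : ℤ := (Int.gcd (γ 0 0 - 1) (γ 1 0) : ℤ) with hg
      have hg0 : g ≠ 0 := by
        rw [hg]
        intro h0
        have : Int.gcd (γ 0 0 - 1) (γ 1 0) = 0 := by exact_mod_cast h0
        rw [Int.gcd_eq_zero_iff] at this
        exact hc this.2
      have hcop : IsCoprime p r := by
        rw [Int.isCoprime_iff_gcd_eq_one]
        have h5 : Int.gcd (g * p) (g * r) = Int.natAbs g * Int.gcd p r := Int.gcd_mul_left g p r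
        rw [← hp, ← hr] at h5
        have h6 : Int.natAbs g = Int.gcd (γ 0 0 - 1) (γ 1 0) := by
          rw [hg]; exact Int.natAbs_natCast _
        rw [h6] at h5
        have h7 : Int.gcd (γ 0 0 - 1) (γ 1 0) ≠ 0 := by
          intro h0
          rw [Int.gcd_eq_zero_iff] at h0
          exact hc h0.2
        have h8 : Int.gcd (γ 0 0 - 1) (γ 1 0) * 1 =
            Int.gcd (γ 0 0 - 1) (γ 1 0) * Int.gcd p r := by
          rw [mul_one]; exact h5
        exact (Nat.eq_of_mul_eq_mul_left (Nat.pos_of_ne_zero h7) h8).symm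
      refine ⟨p, r, hcop, ?_, ?_⟩
      · have h9 : g * ((γ 0 0 - 1) * p + γ 0 1 * r) = 0 := by
          have e1 : g * ((γ 0 0 - 1) * p + γ 0 1 * r)
              = (γ 0 0 - 1) * (g * p) + γ 0 1 * (g * r) := by ring
          rw [e1, ← hp, ← hr]
          linear_combination (γ 0 0) * h - hdet
        have := (mul_eq_zero.mp h9).resolve_left hg0
        linarith
      · have h9 : g * (γ 1 0 * p + (γ 1 1 - 1) * r) = 0 := by
          have e1 : g * (γ 1 0 * p + (γ 1 1 - 1) * r)
              = γ 1 0 * (g * p) + (γ 1 1 - 1) * (g * r) := by ring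
          rw [e1, ← hp, ← hr]
          have : γ 1 1 - 1 = -(γ 0 0 - 1) := by linarith
          rw [this]; ring
        have := (mul_eq_zero.mp h9).resolve_left hg0
        linarith
  obtain ⟨σ, hσ0, hσ1⟩ := hpr.exists_SL2_col 0
  have hσdet : σ 0 0 * σ 1 1 - σ 0 1 * σ 1 0 = 1 := by
    have := σ.det_coe
    rw [Matrix.det_fin_two] at this
    exact this
  refine ⟨σ, (σ⁻¹ * γ * σ) 0 1, ?_⟩
  have hN : σ⁻¹ * γ * σ = ModularGroup.T ^ ((σ⁻¹ * γ * σ) 0 1) := by
    have hNdet : (σ⁻¹ * γ * σ) 0 0 * (σ⁻¹ * γ * σ) 1 1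
        - (σ⁻¹ * γ * σ) 0 1 * (σ⁻¹ * γ * σ) 1 0 = 1 := by
      have := (σ⁻¹ * γ * σ).det_coe
      rw [Matrix.det_fin_two] at this
      exact this
    have e00 : (σ⁻¹ * γ * σ) 0 0 = 1 := by
      simp only [Matrix.SpecialLinearGroup.coe_mul, Matrix.SpecialLinearGroup.coe_inv,
        Matrix.adjugate_fin_two, Matrix.mul_apply, Fin.sum_univ_two, Matrix.of_apply,
        Matrix.cons_val', Matrix.cons_val_zero, Matrix.cons_val_one, Matrix.empty_val',
        Matrix.cons_val_fin_one]
      rw [hσ0, hσ1] at *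
      linear_combination (σ 1 1) * h1 - (σ 0 1) * h2 + hσdet
    have e10 : (σ⁻¹ * γ * σ) 1 0 = 0 := by
      simp only [Matrix.SpecialLinearGroup.coe_mul, Matrix.SpecialLinearGroup.coe_inv,
        Matrix.adjugate_fin_two, Matrix.mul_apply, Fin.sum_univ_two, Matrix.of_apply,
        Matrix.cons_val', Matrix.cons_val_zero, Matrix.cons_val_one, Matrix.empty_val',
        Matrix.cons_val_fin_one]
      rw [hσ0, hσ1] at *
      linear_combination (-r) * h1 + p * h2
    have e11 : (σ⁻¹ * γ * σ) 1 1 = 1 := by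
      rw [e00, e10] at hNdet
      linarith
    ext i j
    rw [ModularGroup.coe_T_zpow]
    fin_cases i <;> fin_cases j
    · simpa using e00
    · simp
    · simpa using e10
    · simpa using e11
  rw [← hN]
  group

/-- An element of `SL(2, ℤ)` whose trace squares to `4` is, up to sign, conjugate to a power of
`T`. -/
theorem exists_conj_T_zpow (γ : SL(2, ℤ))
    (h : (γ : Matrix (Fin 2) (Fin 2) ℤ).trace ^ 2 = 4) :
    ∃ (σ : SL(2, ℤ)) (m : ℤ),
      γ = σ * ModularGroup.T ^ m * σ⁻¹ ∨ γ = -(σ * ModularGroup.T ^ m * σ⁻¹) := by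
  rw [Matrix.trace_fin_two] at h
  have h' : γ 0 0 + γ 1 1 = 2 ∨ γ 0 0 + γ 1 1 = -2 := by
    have h2 : (γ 0 0 + γ 1 1 - 2) * (γ 0 0 + γ 1 1 + 2) = 0 := by linear_combination h
    rcases mul_eq_zero.mp h2 with h3 | h3
    · left; linarith
    · right; linarith
  rcases h' with h' | h'
  · obtain ⟨σ, m, hσ⟩ := exists_conj_T_zpow_of_trace_eq_two γ h'
    exact ⟨σ, m, Or.inl hσ⟩
  · have h'' : (-γ) 0 0 + (-γ) 1 1 = 2 := by
      simp only [Matrix.SpecialLinearGroup.coe_neg, Matrix.neg_apply]
      linarith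
    obtain ⟨σ, m, hσ⟩ := exists_conj_T_zpow_of_trace_eq_two (-γ) h''
    refine ⟨σ, m, Or.inr ?_⟩
    rw [← hσ, neg_neg]

/-- Elements of `SL(2, ℤ)` whose trace squares to `4` act on the upper half-plane like a conjugate
of a power of `T`. -/
theorem exists_conj_T_zpow_smul (γ : SL(2, ℤ))
    (h : (γ : Matrix (Fin 2) (Fin 2) ℤ).trace ^ 2 = 4) :
    ∃ (σ : SL(2, ℤ)) (m : ℤ), ∀ w : ℍ, γ • (σ • w) = σ • (ModularGroup.T ^ m • w) := by
  obtain ⟨σ, m, hσ | hσ⟩ := exists_conj_T_zpow γ h
  · refine ⟨σ, m, fun w => ?_⟩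
    rw [hσ, ← mul_smul, ← mul_smul]
    congr 1
    group
  · refine ⟨σ, m, fun w => ?_⟩
    rw [hσ, ModularGroup.SL_neg_smul, ← mul_smul, ← mul_smul]
    congr 1
    group

variable {N : ℕ}

/-- The period of an equivariant primitive of a cusp form vanishes on the elements of `Γ₀(N)`
whose trace squares to `4` (parabolic elements and `±1`). -/
theorem period_eq_zero' {f : CuspForm (Gamma0 N) 2} {F : ℍ → ℂ}
    (hF : HasEquivariantPrimitive N f F) (γ : Gamma0 N)
    (hγ : (((γ : SL(2, ℤ)) : Matrix (Fin 2) (Fin 2) ℤ)).trace ^ 2 = 4) :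
    hF.2.2.1.period γ = 0 := by
  obtain ⟨σ, m, hσ⟩ := exists_conj_T_zpow_smul (γ : SL(2, ℤ)) hγ
  obtain ⟨L, hL⟩ := hF.2.2.2 σ
  have h1 : Tendsto (fun w : ℍ => F (σ • (ModularGroup.T ^ m • w))) atImInfty (𝓝 L) :=
    hL.comp (tendsto_T_zpow_smul m)
  have h2 : Tendsto (fun w : ℍ => F (σ • (ModularGroup.T ^ m • w)) - F (σ • w)) atImInfty
      (𝓝 (L - L)) := h1.sub hL
  have h3 : (fun w : ℍ => F (σ • (ModularGroup.T ^ m • w)) - F (σ • w))
      = fun _ => hF.2.2.1.period γ := by
    funext w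
    rw [← hσ w]
    exact hF.2.2.1.sub_eq_period γ (σ • w)
  rw [h3, sub_self] at h2
  exact tendsto_nhds_unique tendsto_const_nhds h2

/-- The period homomorphism of an equivariant primitive is parabolic. -/
theorem periodHom_mem_parabolicHoms {f : CuspForm (Gamma0 N) 2} {F : ℍ → ℂ}
    (hF : HasEquivariantPrimitive N f F) :
    hF.2.2.1.periodHom ∈ parabolicHoms ℂ (Gamma0 N) ℂ := by
  rw [mem_parabolicHoms_iff]
  intro γ hγ
  rw [IsEquivariantPrimitive.periodHom_apply]
  exact period_eq_zero' hF γ hγ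

/-- The period map takes values in the parabolic homomorphisms (unconditionally; no hypothesis on
`N`). -/
theorem periodMap_mem_parabolicHoms' (N : ℕ) (f : CuspForm (Gamma0 N) 2) :
    periodMap N f ∈ parabolicHoms ℂ (Gamma0 N) ℂ := by
  classical
  by_cases h : ∃ F : ℍ → ℂ, HasEquivariantPrimitive N f F
  · obtain ⟨F, hF⟩ := h
    obtain ⟨F₀, h₀, heq⟩ := periodMap_def N f hF
    rw [heq]
    exact periodHom_mem_parabolicHoms h₀
  · have : periodMap N f = 0 := by
      unfold periodMap
      rw [dif_neg h]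
    rw [this]
    exact zero_mem _

/-- The paired period map takes values in the parabolic homomorphisms (unconditionally; no
hypothesis on `N`). -/
theorem range_periodHomPair_le' (N : ℕ) :
    LinearMap.range (periodHomPair N) ≤ parabolicHoms ℂ (Gamma0 N) ℂ := by
  classical
  by_cases h : ExistsPeriodMapLinear N
  · obtain ⟨pml, hpml, heq⟩ := periodHomPair_def N h
    rw [heq]
    rintro _ ⟨⟨f, g⟩, rfl⟩
    have hf := periodMap_mem_parabolicHoms' N f
    have hg := periodMap_mem_parabolicHoms' N g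
    rw [← hpml f] at hf
    rw [← hpml g] at hg
    simp only [LinearMap.coprod_apply, LinearMap.comp_apply, LinearMap.add_apply,
      LinearMap.sub_apply, LinearMap.id_apply]
    exact add_mem (add_mem hf (charInvolution_mem_parabolicHoms N ℂ ℂ hf))
      (sub_mem hg (charInvolution_mem_parabolicHoms N ℂ ℂ hg))
  · have : periodHomPair N = 0 := by
      unfold periodHomPair
      rw [dif_neg h]
    rw [this, LinearMap.range_zero]
    exact bot_le

/-! ### Interface statements (exact shapes of `s21_iface`, piece ES1b) -/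

/-- Interface form: an equivariant primitive takes the same value at `z` and `γ • z` when the
trace of `γ ∈ Γ₀(N)` squares to `4`. -/
theorem period_eq_zero (N : ℕ) [NeZero N] (f : CuspForm (Gamma0 N) 2) (F : ℍ → ℂ)
    (hF : HasEquivariantPrimitive N f F) (γ : Gamma0 N)
    (h : ((γ : SL(2, ℤ)) : Matrix (Fin 2) (Fin 2) ℤ).trace ^ 2 = 4) (z : ℍ) :
    F ((γ : SL(2, ℤ)) • z) - F z = 0 := by
  rw [hF.2.2.1.sub_eq_period γ z]
  exact period_eq_zero' hF γ h

/-- Interface form: the period map takes values in the parabolic homomorphisms. -/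
theorem periodMap_mem_parabolicHoms (N : ℕ) [NeZero N] (f : CuspForm (Gamma0 N) 2) :
    periodMap N f ∈ parabolicHoms ℂ (Gamma0 N) ℂ :=
  periodMap_mem_parabolicHoms' N f

/-- Interface form: the range of the paired period map consists of parabolic homomorphisms. -/
theorem range_periodHomPair_le (N : ℕ) [NeZero N] :
    LinearMap.range (periodHomPair N) ≤ parabolicHoms ℂ (Gamma0 N) ℂ :=
  range_periodHomPair_le' N

end Fermat.Agent.S21.Parab
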