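/-
S21, piece ES1: the period map of the Prelude is the honest one.

For a weight two cusp form `f` on `Γ₀(N)` the decaying primitive `prim f` (from the S22 files)
is an equivariant primitive in the sense of the Prelude, the period map is linear, and all
periods vanish on the elements of trace `±2`.  Hence the range of `periodHomPair N` consists of
parabolic homomorphisms.
-/
import Mathlib
import Fermat.Prelude.Def_ModularCurve_PeriodHomPair
import Fermat.Agent.S22.Defs
import Fermat.Agent.S22.Prim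
import Fermat.Agent.S22.NiceForms
import Fermat.Agent.S22.Transform
import Fermat.Agent.S22.Period

set_option autoImplicit false

noncomputable section

open UpperHalfPlane CongruenceSubgroup Filter Topology
open ModularCurve ModularCurve.Period Fermat.Agent.S22
open scoped MatrixGroups ModularForm Manifold

namespace Fermat.Agent.S21.PeriodMap

/-! ### The decaying primitive under `SL(2, ℤ)` -/

/-- `prim f ∘ γ - prim (f ∣[2] γ)` is constant. -/
theorem prim_smul_sub {N : ℕ} [NeZero N] (f : CuspForm (Gamma0 N) 2) (γ : SL(2, ℤ))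
    (z z' : ℍ) :
    prim ⇑f (γ • z) - prim (⇑f ∣[(2 : ℤ)] (Matrix.SpecialLinearGroup.mapGL ℝ γ)) z =
      prim ⇑f (γ • z') - prim (⇑f ∣[(2 : ℤ)] (Matrix.SpecialLinearGroup.mapGL ℝ γ)) z' := by
  have h := eich_transform 0 (Fermat.Agent.S22.Period.det_mapGL_pos γ) (nice_cuspForm f)
    (nice_slash_SL2Z f γ)
    (f' := ⇑f ∣[(2 : ℤ)] (Matrix.SpecialLinearGroup.mapGL ℝ γ)) rfl z z' z
  simp only [bar, eich, Phi, iterPrim, pow_zero, one_mul] at h
  exact h

/-- The constant `prim f (δ z) - prim (f ∣[2] δ) z`. -/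
def cuspConst {N : ℕ} (f : CuspForm (Gamma0 N) 2) (δ : SL(2, ℤ)) : ℂ :=
  prim ⇑f (δ • UpperHalfPlane.I) -
    prim (⇑f ∣[(2 : ℤ)] (Matrix.SpecialLinearGroup.mapGL ℝ δ)) UpperHalfPlane.I

theorem prim_smul_eq {N : ℕ} [NeZero N] (f : CuspForm (Gamma0 N) 2) (δ : SL(2, ℤ)) (z : ℍ) :
    prim ⇑f (δ • z) =
      prim (⇑f ∣[(2 : ℤ)] (Matrix.SpecialLinearGroup.mapGL ℝ δ)) z + cuspConst f δ := by
  have h := prim_smul_sub f δ z UpperHalfPlane.I
  rw [cuspConst]
  linear_combination h

/-- The primitive has a limit at every cusp. -/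
theorem tendsto_prim_smul {N : ℕ} [NeZero N] (f : CuspForm (Gamma0 N) 2) (δ : SL(2, ℤ)) :
    Tendsto (fun w : ℍ => prim ⇑f (δ • w)) atImInfty (𝓝 (cuspConst f δ)) := by
  have h0 : Tendsto (prim (⇑f ∣[(2 : ℤ)] (Matrix.SpecialLinearGroup.mapGL ℝ δ))) atImInfty (𝓝 0) :=
    (nice_slash_SL2Z f δ).isPrim_prim.zero
  have h1 := h0.add_const (cuspConst f δ)
  rw [zero_add] at h1
  exact h1.congr fun w => (prim_smul_eq f δ w).symm

/-- For `γ ∈ Γ₀(N)` the difference `prim f ∘ γ - prim f` is constant. -/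
theorem prim_smul_of_mem {N : ℕ} [NeZero N] (f : CuspForm (Gamma0 N) 2) {γ : SL(2, ℤ)}
    (hγ : γ ∈ Gamma0 N) (z : ℍ) :
    prim ⇑f (γ • z) - prim ⇑f z = prim ⇑f (γ • UpperHalfPlane.I) - prim ⇑f UpperHalfPlane.I := by
  have hs : (⇑f ∣[(2 : ℤ)] (Matrix.SpecialLinearGroup.mapGL ℝ γ)) = ⇑f :=
    SlashInvariantFormClass.slash_action_eq f _ (Subgroup.mem_map_of_mem _ hγ)
  have h := prim_smul_sub f γ z UpperHalfPlane.I
  rw [hs] at h
  exact h

/-- **ES1 (a)**: the decaying primitive is an equivariant primitive in the Prelude's sense. -/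
theorem hasEquivariantPrimitive_prim (N : ℕ) [NeZero N] (f : CuspForm (Gamma0 N) 2) :
    HasEquivariantPrimitive N f (prim ⇑f) := by
  have hP := (nice_cuspForm f).isPrim_prim
  refine ⟨hP.deriv, hP.zero, fun γ => ⟨_, fun z => prim_smul_of_mem f γ.2 z⟩, fun δ => ?_⟩
  exact ⟨cuspConst f δ, tendsto_prim_smul f δ⟩

theorem exists_hasEquivariantPrimitive (N : ℕ) [NeZero N] (f : CuspForm (Gamma0 N) 2) :
    ∃ F : ℍ → ℂ, HasEquivariantPrimitive N f F :=
  ⟨_, hasEquivariantPrimitive_prim N f⟩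

/-- Any equivariant primitive is the decaying primitive. -/
theorem eq_prim_of_hasEquivariantPrimitive {N : ℕ} [NeZero N] {f : CuspForm (Gamma0 N) 2}
    {F : ℍ → ℂ} (hF : HasEquivariantPrimitive N f F) : F = prim ⇑f := by
  have hP : IsPrim F ⇑f := ⟨Fermat.Agent.S22.Prim.mdiff_of_hasDerivAt hF.1, hF.2.1, hF.1⟩
  exact (Fermat.Agent.S22.Prim.prim_eq hP).symm

/-- **ES1 (b)**: the period map in terms of the decaying primitive. -/
theorem periodMap_apply (N : ℕ) [NeZero N] (f : CuspForm (Gamma0 N) 2) (γ : Gamma0 N) :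
    periodMap N f (Additive.ofMul γ) =
      prim ⇑f ((γ : SL(2, ℤ)) • UpperHalfPlane.I) - prim ⇑f UpperHalfPlane.I := by
  obtain ⟨F₀, h₀, hper⟩ := periodMap_def N f (hasEquivariantPrimitive_prim N f)
  have hF₀ : F₀ = prim ⇑f := eq_prim_of_hasEquivariantPrimitive h₀
  rw [hper, IsEquivariantPrimitive.periodHom_apply, IsEquivariantPrimitive.period, hF₀]

theorem prim_add_cuspForm {N : ℕ} (f g : CuspForm (Gamma0 N) 2) :
    prim ⇑(f + g) = prim ⇑f + prim ⇑g := by
  have h := Fermat.Agent.S22.Prim.IsPrim.add' ((nice_cuspForm f).isPrim_prim)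
    ((nice_cuspForm g).isPrim_prim)
  have hc : (⇑(f + g) : ℍ → ℂ) = ⇑f + ⇑g := rfl
  rw [hc]
  exact Fermat.Agent.S22.Prim.prim_eq h

theorem prim_smul_cuspForm {N : ℕ} (c : ℂ) (f : CuspForm (Gamma0 N) 2) :
    prim ⇑(c • f) = c • prim ⇑f := by
  have h := Fermat.Agent.S22.Prim.IsPrim.smul' c ((nice_cuspForm f).isPrim_prim)
  have hc : (⇑(c • f) : ℍ → ℂ) = c • ⇑f := rfl
  rw [hc]
  exact Fermat.Agent.S22.Prim.prim_eq h

/-- The period map, as a linear map. -/
def periodMapLin (N : ℕ) [NeZero N] : CuspForm (Gamma0 N) 2 →ₗ[ℂ] (Additive (Gamma0 N) →+ ℂ) where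
  toFun f := periodMap N f
  map_add' f g := by
    refine AddMonoidHom.ext fun γ => ?_
    obtain ⟨γ, rfl⟩ := Additive.ofMul.surjective γ
    rw [AddMonoidHom.add_apply, periodMap_apply, periodMap_apply, periodMap_apply,
      prim_add_cuspForm]
    simp only [Pi.add_apply]
    ring
  map_smul' c f := by
    refine AddMonoidHom.ext fun γ => ?_
    obtain ⟨γ, rfl⟩ := Additive.ofMul.surjective γ
    rw [RingHom.id_apply, AddMonoidHom.smul_apply, periodMap_apply, periodMap_apply,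
      prim_smul_cuspForm]
    simp only [Pi.smul_apply, smul_eq_mul]
    ring

@[simp] theorem periodMapLin_apply (N : ℕ) [NeZero N] (f : CuspForm (Gamma0 N) 2) :
    periodMapLin N f = periodMap N f := rfl

/-- **ES1 (c)**: the period map is linear. -/
theorem existsPeriodMapLinear (N : ℕ) [NeZero N] : ExistsPeriodMapLinear N :=
  ⟨periodMapLin N, fun _ => rfl⟩

/-- The pair map of the Prelude, evaluated. -/
theorem periodHomPair_apply (N : ℕ) [NeZero N] (f g : CuspForm (Gamma0 N) 2) :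
    periodHomPair N (f, g) =
      (periodMap N f + charInvolution N ℂ ℂ (periodMap N f)) +
        (periodMap N g - charInvolution N ℂ ℂ (periodMap N g)) := by
  obtain ⟨pml, hpml, hdef⟩ := periodHomPair_def N (existsPeriodMapLinear N)
  rw [hdef]
  simp [LinearMap.coprod_apply, hpml]

/-! ### Parabolic elements -/

/-- An element of `SL(2, ℤ)` of trace `±2` is conjugate to an upper triangular one. -/
theorem exists_conj_upper (γ : SL(2, ℤ))
    (htr : ((γ : Matrix (Fin 2) (Fin 2) ℤ)).trace ^ 2 = 4) :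
    ∃ δ : SL(2, ℤ), (δ⁻¹ * γ * δ : SL(2, ℤ)) 1 0 = 0 := by
  by_cases hc : (γ : Matrix (Fin 2) (Fin 2) ℤ) 1 0 = 0
  · exact ⟨1, by simpa using hc⟩
  set a := (γ : Matrix (Fin 2) (Fin 2) ℤ) 0 0 with ha
  set b := (γ : Matrix (Fin 2) (Fin 2) ℤ) 0 1 with hb
  set c := (γ : Matrix (Fin 2) (Fin 2) ℤ) 1 0 with hc'
  set d := (γ : Matrix (Fin 2) (Fin 2) ℤ) 1 1 with hd
  have hdet : a * d - b * c = 1 := by
    have := γ.det_coe
    rw [Matrix.det_fin_two] at this
    exact this
  rw [Matrix.trace_fin_two] at htr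
  -- the eigenvalue `ε = ±1`
  obtain ⟨ε, hε, hε2⟩ : ∃ ε : ℤ, a + d = 2 * ε ∧ ε * ε = 1 := by
    have h : (a + d - 2) * (a + d + 2) = 0 := by linear_combination htr
    rcases mul_eq_zero.mp h with h | h
    · exact ⟨1, by linarith, by norm_num⟩
    · exact ⟨-1, by linarith, by norm_num⟩
  set g : ℤ := (Int.gcd (a - ε) c : ℤ) with hg
  have hgpos : 0 < Int.gcd (a - ε) c := Int.gcd_pos_of_ne_zero_right _ hc
  have hg0 : g ≠ 0 := by
    rw [hg]
    exact_mod_cast hgpos.ne'
  set p : ℤ := (a - ε) / g with hp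
  set q : ℤ := c / g with hq
  have hpg : a - ε = g * p := by
    rw [hp, hg]
    exact (Int.mul_ediv_cancel' (Int.gcd_dvd_left _ _)).symm
  have hqg : c = g * q := by
    rw [hq, hg]
    exact (Int.mul_ediv_cancel' (Int.gcd_dvd_right _ _)).symm
  have hcop : IsCoprime p q := by
    rw [Int.isCoprime_iff_gcd_eq_one, hp, hq, hg]
    exact Int.gcd_div_gcd_div_gcd hgpos
  obtain ⟨δ, hδ0, hδ1⟩ := hcop.exists_SL2_col 0
  refine ⟨δ, ?_⟩
  have hE : g * (-q * (a * p + b * q) + p * (c * p + d * q)) = 0 := by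
    have ha' : a = g * p + ε := by linarith
    have hd' : d = ε - g * p := by linarith
    rw [ha', hd', hqg] at hdet
    rw [ha', hd', hqg]
    linear_combination q * hdet - q * hε2
  have hE' : -q * (a * p + b * q) + p * (c * p + d * q) = 0 := by
    rcases mul_eq_zero.mp hE with h | h
    · exact absurd h hg0
    · exact h
  have e10 : ((δ⁻¹ : SL(2, ℤ)) : Matrix (Fin 2) (Fin 2) ℤ) 1 0 = -q := by
    rw [Matrix.SpecialLinearGroup.coe_inv, Matrix.adjugate_fin_two]
    simp [hδ1]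
  have e11 : ((δ⁻¹ : SL(2, ℤ)) : Matrix (Fin 2) (Fin 2) ℤ) 1 1 = p := by
    rw [Matrix.SpecialLinearGroup.coe_inv, Matrix.adjugate_fin_two]
    simp [hδ0]
  rw [Matrix.SpecialLinearGroup.coe_mul, Matrix.SpecialLinearGroup.coe_mul, Matrix.mul_apply,
    Fin.sum_univ_two, Matrix.mul_apply, Matrix.mul_apply, Fin.sum_univ_two, Fin.sum_univ_two,
    e10, e11, hδ0, hδ1]
  linear_combination hE'

/-- Translation by `T ^ n` preserves the cusp at infinity. -/
theorem tendsto_T_zpow_smul (n : ℤ) :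
    Tendsto (fun w : ℍ => ModularGroup.T ^ n • w) atImInfty atImInfty := by
  rw [atImInfty, tendsto_comap_iff]
  have : (UpperHalfPlane.im ∘ fun w : ℍ => ModularGroup.T ^ n • w) = UpperHalfPlane.im := by
    funext w
    exact ModularGroup.im_T_zpow_smul w n
  rw [this]
  exact tendsto_comap

/-- **ES1 (d)**: periods vanish on elements of trace `±2`. -/
theorem periodMap_mem_parabolicHoms (N : ℕ) [NeZero N] (f : CuspForm (Gamma0 N) 2) :
    periodMap N f ∈ parabolicHoms ℂ (Gamma0 N) ℂ := by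
  rw [mem_parabolicHoms_iff]
  intro γ hγ
  rw [periodMap_apply]
  obtain ⟨δ, hδ⟩ := exists_conj_upper (γ : SL(2, ℤ)) hγ
  obtain ⟨n, hn⟩ := ModularGroup.exists_eq_T_zpow_of_c_eq_zero hδ
  -- the constant value of `prim f (γ z) - prim f z`, computed along `z = δ w`, `w → i∞`
  set c : ℂ := prim ⇑f ((γ : SL(2, ℤ)) • UpperHalfPlane.I) - prim ⇑f UpperHalfPlane.I with hc
  have hconst : ∀ w : ℍ, prim ⇑f (δ • (ModularGroup.T ^ n • w)) - prim ⇑f (δ • w) = c := by
    intro w
    have h1 := prim_smul_of_mem f γ.2 (δ • w)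
    have h2 : (γ : SL(2, ℤ)) • (δ • w) = δ • (ModularGroup.T ^ n • w) := by
      rw [← hn w, ← mul_smul, ← mul_smul]
      congr 1
      group
    rw [h2] at h1
    exact h1
  have hlim1 : Tendsto (fun w : ℍ => prim ⇑f (δ • (ModularGroup.T ^ n • w))) atImInfty
      (𝓝 (cuspConst f δ)) := (tendsto_prim_smul f δ).comp (tendsto_T_zpow_smul n)
  have hlim2 := tendsto_prim_smul f δ
  have hlim : Tendsto (fun _ : ℍ => c) atImInfty (𝓝 (cuspConst f δ - cuspConst f δ)) :=
    (hlim1.sub hlim2).congr hconst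
  rw [sub_self] at hlim
  exact tendsto_nhds_unique tendsto_const_nhds hlim

/-- **ES1 (e)**: the range of the pair map consists of parabolic homomorphisms. -/
theorem range_periodHomPair_le (N : ℕ) [NeZero N] :
    LinearMap.range (periodHomPair N) ≤ parabolicHoms ℂ (Gamma0 N) ℂ := by
  rintro _ ⟨⟨f, g⟩, rfl⟩
  rw [periodHomPair_apply]
  have hf := periodMap_mem_parabolicHoms N f
  have hg := periodMap_mem_parabolicHoms N g
  exact add_mem (add_mem hf (charInvolution_mem_parabolicHoms N ℂ ℂ hf))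
    (sub_mem hg (charInvolution_mem_parabolicHoms N ℂ ℂ hg))

end Fermat.Agent.S21.PeriodMap

end
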