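/-
S21, final assembly (piece ES4), and the upper bound for S20.

* `finrank_cuspForm_le`: `dim S₂(Γ₀(N)) ≤ genusFormula N` (the upper bound for S20), together
  with `finiteDimensional_cuspForm`.
* `result_of_lower_bound`: the Eichler--Shimura statement, given the lower bound
  `genusFormula N ≤ dim S₂(Γ₀(N))`.
* `result_of_finrank_eq`: the Eichler--Shimura statement, given the dimension formula
  `dim S₂(Γ₀(N)) = genusFormula N`.

Inputs: the period map is linear with values in the parabolic homomorphisms (`PeriodMap`,
`Parab`), the pair map is injective (`Inj`), and `dim parabolicHoms ≤ 2 * genusFormula N`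
(`ParBoundGenus`).
-/
import Mathlib
import Fermat.Prelude.Def_ModularCurve_PeriodHomPair
import Fermat.Prelude.Def_ModularCurve_GenusNumerics
import Fermat.Agent.S21.PeriodMap
import Fermat.Agent.S21.Parab
import Fermat.Agent.S21.Inj
import Fermat.Agent.S21.ParBoundGenus

set_option autoImplicit false

noncomputable section

open UpperHalfPlane CongruenceSubgroup ModularCurve ModularCurve.Period
open scoped MatrixGroups

namespace Fermat.Agent.S21

/-- The pair map is injective (unconditionally). -/
theorem periodHomPair_injective (N : ℕ) [NeZero N] :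
    Function.Injective (ModularCurve.periodHomPair N) :=
  Inj.periodHomPair_injective N (PeriodMap.exists_hasEquivariantPrimitive N)
    (PeriodMap.existsPeriodMapLinear N)

/-- `S₂(Γ₀(N))` is finite dimensional. -/
theorem finiteDimensional_cuspForm (N : ℕ) [NeZero N] :
    FiniteDimensional ℂ (CuspForm (Gamma0 N) 2) := by
  obtain ⟨hfd, -⟩ := ParBound.finrank_parabolicHoms_le N
  have hinj := periodHomPair_injective N
  set L : CuspForm (Gamma0 N) 2 →ₗ[ℂ] parabolicHoms ℂ (Gamma0 N) ℂ :=
    LinearMap.codRestrict _ ((periodHomPair N).comp (LinearMap.inl ℂ _ _))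
      (fun f => Parab.range_periodHomPair_le N ⟨_, rfl⟩) with hL
  have hLinj : Function.Injective L := by
    intro f g hfg
    have h := congrArg Subtype.val hfg
    simp only [hL, LinearMap.codRestrict_apply, LinearMap.comp_apply, LinearMap.inl_apply] at h
    have := hinj h
    exact (Prod.mk.inj this).1
  exact FiniteDimensional.of_injective L hLinj

theorem two_mul_finrank_cuspForm_le (N : ℕ) [NeZero N] :
    2 * Module.finrank ℂ (CuspForm (Gamma0 N) 2) ≤
      Module.finrank ℂ (parabolicHoms ℂ (Gamma0 N) ℂ) := by
  obtain ⟨hfd, -⟩ := ParBound.finrank_parabolicHoms_le N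
  have hfdS := finiteDimensional_cuspForm N
  have hinj := periodHomPair_injective N
  set L : (CuspForm (Gamma0 N) 2 × CuspForm (Gamma0 N) 2) →ₗ[ℂ] parabolicHoms ℂ (Gamma0 N) ℂ :=
    LinearMap.codRestrict _ (periodHomPair N)
      (fun p => Parab.range_periodHomPair_le N ⟨_, rfl⟩) with hL
  have hLinj : Function.Injective L := by
    intro p q hpq
    have h := congrArg Subtype.val hpq
    simp only [hL, LinearMap.codRestrict_apply] at h
    exact hinj h
  have h := LinearMap.finrank_le_finrank_of_injective hLinj
  rw [Module.finrank_prod] at h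
  omega

/-- **Upper bound for S20**: `dim S₂(Γ₀(N)) ≤ genusFormula N`. -/
theorem finrank_cuspForm_le (N : ℕ) [NeZero N] :
    (Module.finrank ℂ (CuspForm (Gamma0 N) 2) : ℚ) ≤ genusFormula N := by
  obtain ⟨-, h2⟩ := ParBound.finrank_parabolicHoms_le N
  have h1 : (2 * Module.finrank ℂ (CuspForm (Gamma0 N) 2) : ℚ) ≤
      (Module.finrank ℂ (parabolicHoms ℂ (Gamma0 N) ℂ) : ℚ) := by
    exact_mod_cast two_mul_finrank_cuspForm_le N
  linarith

/-- **ES4**: the Eichler--Shimura statement follows from the lower bound
`genusFormula N ≤ dim S₂(Γ₀(N))`. -/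
theorem result_of_lower_bound (N : ℕ) [NeZero N]
    (hLB : genusFormula N ≤ (Module.finrank ℂ (CuspForm (Gamma0 N) 2) : ℚ)) :
    Function.Injective (ModularCurve.periodHomPair N)
      ∧ LinearMap.range (ModularCurve.periodHomPair N)
          = ModularCurve.Period.parabolicHoms ℂ (CongruenceSubgroup.Gamma0 N) ℂ := by
  obtain ⟨hfd, h2⟩ := ParBound.finrank_parabolicHoms_le N
  have hfdS := finiteDimensional_cuspForm N
  have hinj := periodHomPair_injective N
  refine ⟨hinj, ?_⟩
  have hle := Parab.range_periodHomPair_le N
  have hrank : Module.finrank ℂ (LinearMap.range (periodHomPair N)) =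
      2 * Module.finrank ℂ (CuspForm (Gamma0 N) 2) := by
    rw [LinearMap.finrank_range_of_inj hinj, Module.finrank_prod]
    ring
  have hge : Module.finrank ℂ (parabolicHoms ℂ (Gamma0 N) ℂ) ≤
      Module.finrank ℂ (LinearMap.range (periodHomPair N)) := by
    rw [hrank]
    have : (Module.finrank ℂ (parabolicHoms ℂ (Gamma0 N) ℂ) : ℚ) ≤
        (2 * Module.finrank ℂ (CuspForm (Gamma0 N) 2) : ℚ) := by linarith
    exact_mod_cast this
  exact Submodule.eq_of_le_of_finrank_le hle hge

/-- **ES4**, second form: the Eichler--Shimura statement follows from the dimension formula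
`dim S₂(Γ₀(N)) = genusFormula N` (the statement of S20). -/
theorem result_of_finrank_eq (N : ℕ) [NeZero N]
    (h20 : (Module.finrank ℂ (CuspForm (Gamma0 N) 2) : ℚ) = genusFormula N) :
    Function.Injective (ModularCurve.periodHomPair N)
      ∧ LinearMap.range (ModularCurve.periodHomPair N)
          = ModularCurve.Period.parabolicHoms ℂ (CongruenceSubgroup.Gamma0 N) ℂ :=
  result_of_lower_bound N h20.ge

end Fermat.Agent.S21

end
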