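/-
S21 (Eichler--Shimura for weight two): shared definitions.

`ModularCurve.periodHomPair N` is injective and its range is the space of parabolic homomorphisms
`Γ₀(N) → ℂ`.  Route:

* the period map is given by the decaying primitive of a cusp form (`S22.prim`), is linear and
  takes values in the parabolic homomorphisms;
* injectivity: a harmonic function invariant under `Γ₀(N)` and continuous at the cusps is
  constant (maximum principle);
* `dim parabolicHoms ≤ 2 * genusFormula N`: a homomorphism `Γ₀(N) → ℂ` is encoded by a cocycle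
  on the finite set `X = SL(2, ℤ) ⧸ Γ₀(N)`, determined by its values at `S` and `S * T`; counting
  dimensions on the permutation module of `X` gives the bound;
* `dim S₂(Γ₀(N)) ≥ genusFormula N` (from the S20 project).

This file contains the definitions for the cocycle count only.
-/
import Mathlib

set_option autoImplicit false

noncomputable section

namespace Fermat.Agent.S21

variable {X : Type*}

/-- The cocycle value at `t = s⁻¹ * u` determined by the values `a` at `s` and `b` at `u`:
`τ x = b x - a (t x)`. -/
def tauFun (s u : Equiv.Perm X) (p : (X → ℂ) × (X → ℂ)) : X → ℂ :=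
  fun x => p.2 x - p.1 ((s⁻¹ * u) x)

/-- The space of parabolic cocycle data on the finite set `X`, for permutations `s` (an involution)
and `u` (of order three): pairs `(a, b)` of functions on `X` with `a (s x) + a x = 0`,
`b (u (u x)) + b (u x) + b x = 0`, and such that the sum of `tauFun s u (a, b)` along every orbit
of `t = s⁻¹ * u` vanishes (written as a sum over `k < orderOf t` of the values at `t ^ k x`). -/
def cocycleSpace (s u : Equiv.Perm X) : Submodule ℂ ((X → ℂ) × (X → ℂ)) where
  carrier := {p | (∀ x, p.1 (s x) + p.1 x = 0) ∧ (∀ x, p.2 (u (u x)) + p.2 (u x) + p.2 x = 0) ∧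
    ∀ x, ∑ k ∈ Finset.range (orderOf (s⁻¹ * u)), tauFun s u p (((s⁻¹ * u) ^ k) x) = 0}
  zero_mem' := by
    refine ⟨fun x => by simp, fun x => by simp, fun x => ?_⟩
    simp [tauFun]
  add_mem' := by
    rintro p q ⟨hp1, hp2, hp3⟩ ⟨hq1, hq2, hq3⟩
    refine ⟨fun x => ?_, fun x => ?_, fun x => ?_⟩
    · have h1 := hp1 x
      have h2 := hq1 x
      simp only [Prod.fst_add, Pi.add_apply]
      linear_combination h1 + h2
    · have h1 := hp2 x
      have h2 := hq2 x
      simp only [Prod.snd_add, Pi.add_apply]
      linear_combination h1 + h2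
    · have h1 := hp3 x
      have h2 := hq3 x
      have : ∀ y, tauFun s u (p + q) y = tauFun s u p y + tauFun s u q y := by
        intro y
        simp only [tauFun, Prod.fst_add, Prod.snd_add, Pi.add_apply]
        ring
      simp only [this, Finset.sum_add_distrib, h1, h2, add_zero]
  smul_mem' := by
    rintro c p ⟨hp1, hp2, hp3⟩
    refine ⟨fun x => ?_, fun x => ?_, fun x => ?_⟩
    · have h1 := hp1 x
      simp only [Prod.smul_fst, Pi.smul_apply, smul_eq_mul]
      linear_combination c * h1
    · have h1 := hp2 x
      simp only [Prod.smul_snd, Pi.smul_apply, smul_eq_mul]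
      linear_combination c * h1
    · have h1 := hp3 x
      have : ∀ y, tauFun s u (c • p) y = c * tauFun s u p y := by
        intro y
        simp only [tauFun, Prod.smul_fst, Prod.smul_snd, Pi.smul_apply, smul_eq_mul]
        ring
      simp only [this, ← Finset.mul_sum, h1, mul_zero]

theorem mem_cocycleSpace {s u : Equiv.Perm X} {p : (X → ℂ) × (X → ℂ)} :
    p ∈ cocycleSpace s u ↔ (∀ x, p.1 (s x) + p.1 x = 0) ∧
      (∀ x, p.2 (u (u x)) + p.2 (u x) + p.2 x = 0) ∧
      ∀ x, ∑ k ∈ Finset.range (orderOf (s⁻¹ * u)), tauFun s u p (((s⁻¹ * u) ^ k) x) = 0 :=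
  Iff.rfl

/-- The coboundary map `m ↦ (m ∘ s - m, m ∘ u - m)`. -/
def coboundaryMap (s u : Equiv.Perm X) : (X → ℂ) →ₗ[ℂ] ((X → ℂ) × (X → ℂ)) where
  toFun m := (fun x => m (s x) - m x, fun x => m (u x) - m x)
  map_add' m m' := by
    ext x <;> simp only [Pi.add_apply, Prod.mk_add_mk] <;> ring
  map_smul' c m := by
    ext x <;> simp only [Pi.smul_apply, smul_eq_mul, RingHom.id_apply, Prod.smul_mk] <;> ring

theorem coboundaryMap_apply (s u : Equiv.Perm X) (m : X → ℂ) :
    coboundaryMap s u m = (fun x => m (s x) - m x, fun x => m (u x) - m x) := rfl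

/-- The space of coboundaries. -/
def coboundarySpace (s u : Equiv.Perm X) : Submodule ℂ ((X → ℂ) × (X → ℂ)) :=
  LinearMap.range (coboundaryMap s u)

/-- Number of fixed points of a permutation. -/
def fixCount (g : Equiv.Perm X) : ℕ := Nat.card {x : X // g x = x}

/-- Number of orbits of (the cyclic group generated by) a permutation. -/
def orbCount (g : Equiv.Perm X) : ℕ :=
  Nat.card (MulAction.orbitRel.Quotient (Subgroup.zpowers g) X)

end Fermat.Agent.S21

end
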