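/-
S21 piece ES3a (COH-GRP): the Shapiro cocycle of an additive character of a finite index
subgroup.  For `Γ ≤ G`, `X = G ⧸ Γ` and `ψ : Γ → A` additive, `coc ψ g x = ψ (r_{gx}⁻¹ g r_x)`
satisfies `coc ψ (g g') x = coc ψ g (g' x) + coc ψ g' x`.  If `G` is generated by `s, t`, the
pair `(coc ψ s, coc ψ (s t))` determines `ψ` modulo coboundaries, and it satisfies the obvious
linear constraints coming from `s⁴ = 1`, `(s t)³ = s²` and from the vanishing of `ψ` on the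
conjugates of powers of `t`.
-/
import Mathlib
import Fermat.Agent.S21.Defs

set_option autoImplicit false

noncomputable section

namespace Fermat.Agent.S21.CohGrp

variable {G : Type*} [Group G] (Γ : Subgroup G) {A : Type*} [AddCommGroup A]

/-- A representative of a left coset. -/
def rep (x : G ⧸ Γ) : G := Quotient.out x

theorem mk_rep (x : G ⧸ Γ) : ((rep Γ x : G) : G ⧸ Γ) = x := QuotientGroup.out_eq' x

theorem smul_eq_mk (g : G) (x : G ⧸ Γ) : g • x = ((g * rep Γ x : G) : G ⧸ Γ) := by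
  conv_lhs => rw [← mk_rep Γ x]
  rfl

theorem cocElt_mem (g : G) (x : G ⧸ Γ) : (rep Γ (g • x))⁻¹ * (g * rep Γ x) ∈ Γ := by
  rw [← QuotientGroup.eq, mk_rep, smul_eq_mk]

/-- The element `r_{gx}⁻¹ g r_x` of `Γ`. -/
def cocElt (g : G) (x : G ⧸ Γ) : Γ := ⟨(rep Γ (g • x))⁻¹ * (g * rep Γ x), cocElt_mem Γ g x⟩

theorem cocElt_mul (g g' : G) (x : G ⧸ Γ) :
    cocElt Γ (g * g') x = cocElt Γ g (g' • x) * cocElt Γ g' x := by
  apply Subtype.ext
  simp only [cocElt, Subgroup.coe_mul, mul_smul]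
  group

/-- The Shapiro cocycle attached to an additive character of `Γ`. -/
def coc (ψ : Additive Γ →+ A) (g : G) (x : G ⧸ Γ) : A := ψ (Additive.ofMul (cocElt Γ g x))

variable {Γ}

theorem coc_mul (ψ : Additive Γ →+ A) (g g' : G) (x : G ⧸ Γ) :
    coc Γ ψ (g * g') x = coc Γ ψ g (g' • x) + coc Γ ψ g' x := by
  unfold coc
  rw [cocElt_mul, ofMul_mul, map_add]

theorem coc_one (ψ : Additive Γ →+ A) (x : G ⧸ Γ) : coc Γ ψ 1 x = 0 := by
  have h := coc_mul ψ 1 1 x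
  rw [one_mul, one_smul] at h
  exact left_eq_add.mp h

theorem coc_add (ψ ψ' : Additive Γ →+ A) (g : G) (x : G ⧸ Γ) :
    coc Γ (ψ + ψ') g x = coc Γ ψ g x + coc Γ ψ' g x := rfl

theorem coc_zero (g : G) (x : G ⧸ Γ) : coc Γ (0 : Additive Γ →+ A) g x = 0 := rfl

theorem coc_pow (ψ : Additive Γ →+ A) (g : G) (M : ℕ) (x : G ⧸ Γ) :
    coc Γ ψ (g ^ M) x = ∑ k ∈ Finset.range M, coc Γ ψ g (g ^ k • x) := by
  induction M with
  | zero => simp [coc_one]
  | succ M ih =>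
    rw [pow_succ', coc_mul, Finset.sum_range_succ, ih, add_comm]

/-- Conjugation by an element of `Γ` does not change the value of an additive character. -/
theorem map_conj (ψ : Additive Γ →+ A) (r γ : Γ) :
    ψ (Additive.ofMul (r⁻¹ * γ * r)) = ψ (Additive.ofMul γ) := by
  rw [ofMul_mul, ofMul_mul, map_add, map_add, ofMul_inv, map_neg]
  abel

theorem coc_of_smul_eq (ψ : Additive Γ →+ A) {g : G} {x : G ⧸ Γ} (h : g • x = x)
    (hmem : (rep Γ x)⁻¹ * g * rep Γ x ∈ Γ) :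
    coc Γ ψ g x = ψ (Additive.ofMul ⟨(rep Γ x)⁻¹ * g * rep Γ x, hmem⟩) := by
  unfold coc
  congr 2
  apply Subtype.ext
  simp only [cocElt, h, mul_assoc]

/-- The value of the cocycle at the base coset on an element of `Γ`. -/
theorem coc_base (ψ : Additive Γ →+ A) (γ : Γ) :
    coc Γ ψ (γ : G) ((1 : G) : G ⧸ Γ) = ψ (Additive.ofMul γ) := by
  have hfix : (γ : G) • (((1 : G) : G ⧸ Γ)) = ((1 : G) : G ⧸ Γ) := by
    show (((γ : G) * 1 : G) : G ⧸ Γ) = ((1 : G) : G ⧸ Γ)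
    rw [QuotientGroup.eq]
    simp
  have hr : rep Γ ((1 : G) : G ⧸ Γ) ∈ Γ := by
    have := mk_rep Γ ((1 : G) : G ⧸ Γ)
    rw [QuotientGroup.eq] at this
    simpa using Γ.inv_mem this
  have hmem : (rep Γ ((1 : G) : G ⧸ Γ))⁻¹ * (γ : G) * rep Γ ((1 : G) : G ⧸ Γ) ∈ Γ :=
    Γ.mul_mem (Γ.mul_mem (Γ.inv_mem hr) γ.2) hr
  rw [coc_of_smul_eq ψ hfix hmem]
  exact map_conj ψ ⟨_, hr⟩ γ

/-- A central element of `G` lying in `Γ` acts trivially on `G ⧸ Γ`. -/
theorem central_smul {z : G} (hz : z ∈ Γ) (hcen : ∀ g : G, z * g = g * z) (x : G ⧸ Γ) :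
    z • x = x := by
  rw [smul_eq_mk]
  conv_rhs => rw [← mk_rep Γ x]
  rw [QuotientGroup.eq, hcen]
  have : (rep Γ x * z)⁻¹ * rep Γ x = z⁻¹ := by group
  rw [this]
  exact Γ.inv_mem hz

/-- The cocycle at a central element of `G` lying in `Γ`. -/
theorem coc_central (ψ : Additive Γ →+ A) {z : G} (hz : z ∈ Γ) (hcen : ∀ g : G, z * g = g * z)
    (x : G ⧸ Γ) : coc Γ ψ z x = ψ (Additive.ofMul ⟨z, hz⟩) := by
  have hmem : (rep Γ x)⁻¹ * z * rep Γ x ∈ Γ := by
    rw [mul_assoc, hcen, inv_mul_cancel_left]; exact hz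
  rw [coc_of_smul_eq ψ (central_smul hz hcen x) hmem]
  congr 2
  apply Subtype.ext
  show (rep Γ x)⁻¹ * z * rep Γ x = z
  rw [mul_assoc, hcen, inv_mul_cancel_left]

section Main

variable {s t : G}

/-- (Z1): `a = coc ψ s` is anti-invariant under `s`. -/
theorem coc_s_add (ψ : Additive Γ →+ A) (hs2 : s ^ 2 ∈ Γ) (hcen : ∀ g : G, s ^ 2 * g = g * s ^ 2)
    (h0 : ψ (Additive.ofMul ⟨s ^ 2, hs2⟩) = 0) (x : G ⧸ Γ) :
    coc Γ ψ s (s • x) + coc Γ ψ s x = 0 := by
  have h1 := coc_central ψ hs2 hcen x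
  rw [h0, pow_two, coc_mul] at h1
  exact h1

/-- (Z2): `b = coc ψ (s t)` is killed by `1 + u + u²`, `u = s t`. -/
theorem coc_st_add (ψ : Additive Γ →+ A) (hs2 : s ^ 2 ∈ Γ)
    (hcen : ∀ g : G, s ^ 2 * g = g * s ^ 2) (hst : (s * t) ^ 3 = s ^ 2)
    (h0 : ψ (Additive.ofMul ⟨s ^ 2, hs2⟩) = 0) (x : G ⧸ Γ) :
    coc Γ ψ (s * t) ((s * t) • (s * t) • x) + coc Γ ψ (s * t) ((s * t) • x)
      + coc Γ ψ (s * t) x = 0 := by
  have h1 := coc_central ψ hs2 hcen x
  rw [h0, ← hst, coc_pow] at h1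
  rw [Finset.sum_range_succ, Finset.sum_range_succ, Finset.sum_range_one, pow_zero, one_smul,
    pow_one, pow_two, mul_smul (s * t) (s * t) x] at h1
  rw [← h1]
  abel

/-- The cocycle at `t` in terms of `a = coc ψ s` and `b = coc ψ (s t)`. -/
theorem coc_t_eq (ψ : Additive Γ →+ A) (x : G ⧸ Γ) :
    coc Γ ψ t x = coc Γ ψ (s * t) x - coc Γ ψ s (t • x) := by
  rw [coc_mul]
  abel

/-- (Z3): the orbit sums of `τ = b - a ∘ t` vanish when `ψ` kills the conjugates of the powers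
of `t` lying in `Γ`. -/
theorem sum_coc_t (ψ : Additive Γ →+ A) {M : ℕ} (hM : ∀ x : G ⧸ Γ, t ^ M • x = x)
    (hpar : ∀ (g : G) (k : ℕ) (h : g⁻¹ * t ^ k * g ∈ Γ), ψ (Additive.ofMul ⟨_, h⟩) = 0)
    (x : G ⧸ Γ) :
    ∑ k ∈ Finset.range M, (coc Γ ψ (s * t) (t ^ k • x) - coc Γ ψ s (t • t ^ k • x)) = 0 := by
  have hmem : (rep Γ x)⁻¹ * t ^ M * rep Γ x ∈ Γ := by
    have := cocElt_mem Γ (t ^ M) x
    rwa [hM x, ← mul_assoc] at this
  have h1 := coc_of_smul_eq ψ (hM x) hmem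
  rw [hpar (rep Γ x) M hmem, coc_pow] at h1
  rw [← h1]
  exact Finset.sum_congr rfl fun k _ => (coc_t_eq ψ _).symm

/-- (INJ): if the pair `(coc ψ s, coc ψ (s t))` is the coboundary of `m`, then `ψ = 0`. -/
theorem eq_zero_of_coboundary (ψ : Additive Γ →+ A) (hgen : Subgroup.closure {s, t} = ⊤)
    (m : G ⧸ Γ → A) (ha : ∀ x, coc Γ ψ s x = m (s • x) - m x)
    (hb : ∀ x, coc Γ ψ (s * t) x = m ((s * t) • x) - m x) : ψ = 0 := by
  -- the subgroup of elements on which the cocycle agrees with the coboundary of `m`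
  let H : Subgroup G :=
    { carrier := {g | ∀ x, coc Γ ψ g x = m (g • x) - m x}
      one_mem' := fun x => by simp [coc_one]
      mul_mem' := fun {g g'} hg hg' x => by
        show coc Γ ψ (g * g') x = m ((g * g') • x) - m x
        rw [coc_mul, hg, hg', mul_smul]
        abel
      inv_mem' := fun {g} hg x => by
        show coc Γ ψ g⁻¹ x = m (g⁻¹ • x) - m x
        have h1 := coc_mul ψ g g⁻¹ x
        rw [mul_inv_cancel, coc_one, hg, smul_inv_smul] at h1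
        have h2 : coc Γ ψ g⁻¹ x = -(m x - m (g⁻¹ • x)) := eq_neg_of_add_eq_zero_right h1.symm
        rw [h2]
        abel }
  have hs : s ∈ H := ha
  have ht : t ∈ H := fun x => by
    rw [coc_t_eq (s := s), hb, ha, mul_smul]
    abel
  have htop : H = ⊤ := by
    apply top_unique
    rw [← hgen, Subgroup.closure_le]
    rintro g (rfl | rfl)
    · exact hs
    · exact ht
  refine AddMonoidHom.ext fun γ => ?_
  have hγ : ((Additive.toMul γ : Γ) : G) ∈ H := htop ▸ Subgroup.mem_top _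
  have h1 := hγ ((1 : G) : G ⧸ Γ)
  rw [coc_base] at h1
  have hfix : ((Additive.toMul γ : Γ) : G) • (((1 : G) : G ⧸ Γ)) = ((1 : G) : G ⧸ Γ) := by
    show ((((Additive.toMul γ : Γ) : G) * 1 : G) : G ⧸ Γ) = ((1 : G) : G ⧸ Γ)
    rw [QuotientGroup.eq]
    simp
  rw [hfix, sub_self] at h1
  exact h1

end Main

section Pair

variable {G : Type*} [Group G] (Γ : Subgroup G)

/-- The pair of cocycle values `(coc ψ s, coc ψ (s * t))`, as a linear map in `ψ`. -/
def cocPair (s t : G) : (Additive Γ →+ ℂ) →ₗ[ℂ] ((G ⧸ Γ → ℂ) × (G ⧸ Γ → ℂ)) where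
  toFun ψ := (coc Γ ψ s, coc Γ ψ (s * t))
  map_add' _ _ := rfl
  map_smul' _ _ := rfl

theorem cocPair_apply (s t : G) (ψ : Additive Γ →+ ℂ) :
    cocPair Γ s t ψ = (coc Γ ψ s, coc Γ ψ (s * t)) := rfl

variable {Γ}

theorem toPerm_inv_mul (s t : G) :
    (MulAction.toPerm s : Equiv.Perm (G ⧸ Γ))⁻¹ * MulAction.toPerm (s * t) = MulAction.toPerm t := by
  ext x
  simp [mul_smul]

theorem toPerm_pow_apply (t : G) (k : ℕ) (x : G ⧸ Γ) :
    ((MulAction.toPerm t : Equiv.Perm (G ⧸ Γ)) ^ k) x = t ^ k • x := by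
  induction k generalizing x with
  | zero => simp
  | succ k ih => rw [pow_succ, Equiv.Perm.mul_apply, ih, pow_succ, mul_smul]; rfl

theorem pow_orderOf_toPerm_smul (t : G) (x : G ⧸ Γ) :
    t ^ orderOf (MulAction.toPerm t : Equiv.Perm (G ⧸ Γ)) • x = x := by
  rw [← toPerm_pow_apply, pow_orderOf_eq_one]
  rfl

/-- The cocycle pair of a character killing the conjugates of powers of `t` is a parabolic
cocycle datum. -/
theorem cocPair_mem_cocycleSpace (s t : G)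
    (hsΓ : s * s ∈ Γ) (hcomm : ∀ g : G, g * (s * s) = (s * s) * g)
    (hs4 : (s * s) * (s * s) = 1) (hu : (s * t) * (s * t) * (s * t) = s * s)
    (ψ : Additive Γ →+ ℂ)
    (hpar : ∀ (g : G) (k : ℕ) (h : g⁻¹ * t ^ k * g ∈ Γ),
      ψ (Additive.ofMul (⟨g⁻¹ * t ^ k * g, h⟩ : Γ)) = 0) :
    cocPair Γ s t ψ ∈ cocycleSpace (MulAction.toPerm s : Equiv.Perm (G ⧸ Γ))
      (MulAction.toPerm (s * t)) := by
  have hs2 : s ^ 2 ∈ Γ := by rw [pow_two]; exact hsΓ
  have hcen : ∀ g : G, s ^ 2 * g = g * s ^ 2 := fun g => by rw [pow_two]; exact (hcomm g).symm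
  have hst : (s * t) ^ 3 = s ^ 2 := by rw [pow_succ, pow_two, pow_two]; exact hu
  have h0 : ψ (Additive.ofMul (⟨s ^ 2, hs2⟩ : Γ)) = 0 := by
    have h1 : (⟨s ^ 2, hs2⟩ : Γ) * ⟨s ^ 2, hs2⟩ = 1 := by
      apply Subtype.ext
      show s ^ 2 * s ^ 2 = 1
      rw [pow_two]; exact hs4
    have h2 := congrArg (fun γ : Γ => ψ (Additive.ofMul γ)) h1
    simp only [ofMul_mul, map_add, ofMul_one, map_zero] at h2
    have h3 : (2 : ℂ) * ψ (Additive.ofMul (⟨s ^ 2, hs2⟩ : Γ)) = 0 := by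
      rw [two_mul]; exact h2
    exact (mul_eq_zero.mp h3).resolve_left two_ne_zero
  rw [mem_cocycleSpace]
  refine ⟨fun x => coc_s_add ψ hs2 hcen h0 x, fun x => coc_st_add ψ hs2 hcen hst h0 x, fun x => ?_⟩
  rw [toPerm_inv_mul]
  have h1 := sum_coc_t (s := s) ψ (M := orderOf (MulAction.toPerm t : Equiv.Perm (G ⧸ Γ)))
    (fun x => pow_orderOf_toPerm_smul t x) hpar x
  rw [← h1]
  refine Finset.sum_congr rfl fun k _ => ?_
  rw [toPerm_pow_apply]
  simp only [tauFun, cocPair_apply, toPerm_inv_mul]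
  rfl

/-- If the cocycle pair of `ψ` is a coboundary, then `ψ = 0`. -/
theorem eq_zero_of_mem_coboundarySpace (s t : G) (hgen : Subgroup.closure ({s, t} : Set G) = ⊤)
    (ψ : Additive Γ →+ ℂ)
    (h : cocPair Γ s t ψ ∈ coboundarySpace (MulAction.toPerm s : Equiv.Perm (G ⧸ Γ))
      (MulAction.toPerm (s * t))) : ψ = 0 := by
  obtain ⟨m, hm⟩ := h
  rw [coboundaryMap_apply, cocPair_apply, Prod.mk.injEq] at hm
  refine eq_zero_of_coboundary ψ hgen m (fun x => ?_) (fun x => ?_)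
  · exact (congrFun hm.1 x).symm
  · exact (congrFun hm.2 x).symm

end Pair

section Quot

variable {G : Type*} [Group G]

/-- The induced injective linear map from a space of characters killing the conjugates of powers
of `t` into parabolic cocycle data modulo coboundaries (same statement as the interface stub
`CohGrp.exists_injective`). -/
theorem exists_injective_quotient (Γ : Subgroup G)
    (s t : G) (hgen : Subgroup.closure ({s, t} : Set G) = ⊤)
    (hsΓ : s * s ∈ Γ) (hcomm : ∀ g : G, g * (s * s) = (s * s) * g)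
    (hs4 : (s * s) * (s * s) = 1) (hu : (s * t) * (s * t) * (s * t) = s * s)
    (P : Submodule ℂ (Additive Γ →+ ℂ))
    (hP : ∀ ψ ∈ P, ∀ (g : G) (k : ℕ) (h : g⁻¹ * t ^ k * g ∈ Γ),
      ψ (Additive.ofMul (⟨g⁻¹ * t ^ k * g, h⟩ : Γ)) = 0) :
    ∃ L : P →ₗ[ℂ]
        (cocycleSpace (MulAction.toPerm s : Equiv.Perm (G ⧸ Γ)) (MulAction.toPerm (s * t))) ⧸
          (coboundarySpace (MulAction.toPerm s : Equiv.Perm (G ⧸ Γ))
            (MulAction.toPerm (s * t))).comap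
              (cocycleSpace (MulAction.toPerm s : Equiv.Perm (G ⧸ Γ))
                (MulAction.toPerm (s * t))).subtype,
      Function.Injective L := by
  let L₀ : P →ₗ[ℂ] cocycleSpace (MulAction.toPerm s : Equiv.Perm (G ⧸ Γ))
      (MulAction.toPerm (s * t)) :=
    LinearMap.codRestrict _ ((cocPair Γ s t).comp P.subtype)
      (fun ψ => cocPair_mem_cocycleSpace s t hsΓ hcomm hs4 hu ψ.1 (hP ψ.1 ψ.2))
  refine ⟨(Submodule.mkQ _).comp L₀, ?_⟩
  rw [← LinearMap.ker_eq_bot, LinearMap.ker_eq_bot']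
  intro ψ hψ
  rw [LinearMap.comp_apply, Submodule.mkQ_apply, Submodule.Quotient.mk_eq_zero,
    Submodule.mem_comap] at hψ
  have h1 : cocPair Γ s t ψ.1 ∈ coboundarySpace (MulAction.toPerm s : Equiv.Perm (G ⧸ Γ))
      (MulAction.toPerm (s * t)) := hψ
  exact Subtype.ext (eq_zero_of_mem_coboundarySpace s t hgen ψ.1 h1)

end Quot

end Fermat.Agent.S21.CohGrp
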