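/-
S21, piece ES4 (final assembly, conditional form): Eichler–Shimura from
* joint injectivity of the pair map (ES2),
* the upper bound `dim parabolicHoms ≤ 2 * genus` (ES3), and
* the dimension formula `dim S₂(Γ₀(N)) = genus` (S20),
using that the range consists of parabolic homomorphisms (ES1).
-/
import Mathlib
import Fermat.Prelude.Def_ModularCurve_PeriodHomPair
import Fermat.Prelude.Def_ModularCurve_GenusNumerics
import Fermat.Agent.S21.PeriodMap

set_option autoImplicit false

noncomputable section

open UpperHalfPlane CongruenceSubgroup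
open ModularCurve ModularCurve.Period
open scoped MatrixGroups ModularForm

namespace Fermat.Agent.S21.Final

open Fermat.Agent.S21.PeriodMap

/-- Eichler–Shimura from injectivity and a dimension bound. -/
theorem result_of (N : ℕ) [NeZero N]
    (hinj : Function.Injective (periodHomPair N))
    (hfin : Module.Finite ℂ (parabolicHoms ℂ (Gamma0 N) ℂ))
    (hdim : Module.finrank ℂ (parabolicHoms ℂ (Gamma0 N) ℂ) ≤
      2 * Module.finrank ℂ (CuspForm (Gamma0 N) 2)) :
    Function.Injective (periodHomPair N) ∧
      LinearMap.range (periodHomPair N) = parabolicHoms ℂ (Gamma0 N) ℂ := by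
  refine ⟨hinj, ?_⟩
  have hle := range_periodHomPair_le N
  -- the range is finite dimensional, hence so are `S₂ × S₂` and `S₂`
  have hfr : Module.Finite ℂ (LinearMap.range (periodHomPair N)) :=
    Module.Finite.of_injective (Submodule.inclusion hle) (Submodule.inclusion_injective hle)
  have hfp : Module.Finite ℂ (CuspForm (Gamma0 N) 2 × CuspForm (Gamma0 N) 2) :=
    Module.Finite.of_injective (LinearMap.rangeRestrict (periodHomPair N)) (by
      intro x y hxy
      apply hinj
      exact congrArg Subtype.val hxy)
  have hfs : Module.Finite ℂ (CuspForm (Gamma0 N) 2) :=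
    Module.Finite.of_injective
      (LinearMap.inl ℂ (CuspForm (Gamma0 N) 2) (CuspForm (Gamma0 N) 2)) LinearMap.inl_injective
  have h1 : Module.finrank ℂ (LinearMap.range (periodHomPair N)) =
      Module.finrank ℂ (CuspForm (Gamma0 N) 2 × CuspForm (Gamma0 N) 2) :=
    LinearMap.finrank_range_of_inj hinj
  have h2 : Module.finrank ℂ (CuspForm (Gamma0 N) 2 × CuspForm (Gamma0 N) 2) =
      Module.finrank ℂ (CuspForm (Gamma0 N) 2) + Module.finrank ℂ (CuspForm (Gamma0 N) 2) :=
    Module.finrank_prod
  exact Submodule.eq_of_le_of_finrank_le hle (by omega)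

/-- Eichler–Shimura from injectivity, the bound `dim parabolicHoms ≤ 2 * genusFormula N` and the
dimension formula `dim S₂(Γ₀(N)) = genusFormula N`. -/
theorem result_of_genus (N : ℕ) [NeZero N]
    (hinj : Function.Injective (periodHomPair N))
    (hfin : Module.Finite ℂ (parabolicHoms ℂ (Gamma0 N) ℂ))
    (hpar : (Module.finrank ℂ (parabolicHoms ℂ (Gamma0 N) ℂ) : ℚ) ≤ 2 * genusFormula N)
    (h20 : (Module.finrank ℂ (CuspForm (Gamma0 N) 2) : ℚ) = genusFormula N) :
    Function.Injective (periodHomPair N) ∧
      LinearMap.range (periodHomPair N) = parabolicHoms ℂ (Gamma0 N) ℂ := by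
  refine result_of N hinj hfin ?_
  have h : (Module.finrank ℂ (parabolicHoms ℂ (Gamma0 N) ℂ) : ℚ) ≤
      ((2 * Module.finrank ℂ (CuspForm (Gamma0 N) 2) : ℕ) : ℚ) := by
    push_cast
    rw [h20]
    exact hpar
  exact_mod_cast h

end Fermat.Agent.S21.Final

end
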