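/-
S21 (Eichler--Shimura), piece ES2a "MAXP": a maximum principle on the modular curve.

A holomorphic function `u` on the upper half plane whose absolute value is invariant under
`Gamma0 N`, and such that every `SL(2, ℤ)`-translate of `u` is `N`-periodic and has a limit at
the cusp at infinity, is constant.  The same holds for a holomorphic `Φ` whose real part is
invariant (apply the first statement to `exp ∘ Φ`).

Proof: the translates by the finitely many coset representatives descend to holomorphic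
functions on the unit disc (cusp functions); every value of `u` is, up to absolute value, a
value of one of these on a fixed closed disc of radius `< 1` (fundamental domain); by
compactness the absolute value has an interior maximum, and the maximum modulus principle
applies.
-/
import Mathlib

set_option autoImplicit false

noncomputable section

open UpperHalfPlane Filter Topology CongruenceSubgroup Function
open scoped MatrixGroups Manifold Modular Real

namespace Fermat.Agent.S21.MaxMod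

local notation "𝕢" => Function.Periodic.qParam

/-- Translate of a function on the upper half plane by an element of `SL(2, ℤ)`. -/
def tr (u : ℍ → ℂ) (δ : SL(2, ℤ)) : ℍ → ℂ := fun w => u (δ • w)

theorem tr_apply (u : ℍ → ℂ) (δ : SL(2, ℤ)) (w : ℍ) : tr u δ w = u (δ • w) := rfl

theorem mdiff_tr {u : ℍ → ℂ} (hu : MDiff u) (δ : SL(2, ℤ)) : MDiff (tr u δ) := by
  have h : MDiff (fun τ : ℍ => (Matrix.SpecialLinearGroup.mapGL ℝ δ : GL (Fin 2) ℝ) • τ) :=
    UpperHalfPlane.mdifferentiable_smul (by simp)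
  exact hu.comp h

theorem periodic_tr {N : ℕ} {u : ℍ → ℂ} (δ : SL(2, ℤ))
    (hper : ∀ z : ℍ, u (δ • ((N : ℝ) +ᵥ z)) = u (δ • z)) :
    Periodic (tr u δ ∘ ofComplex) ((N : ℝ) : ℂ) := by
  intro w
  by_cases hw : 0 < w.im
  · have hw' : 0 < (w + ((N : ℝ) : ℂ)).im := by simpa using hw
    rw [Function.comp_apply, Function.comp_apply, ofComplex_apply_of_im_pos hw',
      ofComplex_apply_of_im_pos hw]
    have h1 : (⟨w + ((N : ℝ) : ℂ), hw'⟩ : ℍ) = (N : ℝ) +ᵥ (⟨w, hw⟩ : ℍ) := by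
      ext
      simp [add_comm]
    rw [h1]
    exact hper _
  · have hw0 : w.im ≤ 0 := not_lt.mp hw
    have hw' : (w + ((N : ℝ) : ℂ)).im ≤ 0 := by simpa using hw0
    rw [Function.comp_apply, Function.comp_apply, ofComplex_apply_of_im_nonpos hw',
      ofComplex_apply_of_im_nonpos hw0]

theorem bounded_tr {u : ℍ → ℂ} (δ : SL(2, ℤ))
    (hlim : ∃ L : ℂ, Tendsto (fun w : ℍ => u (δ • w)) atImInfty (𝓝 L)) :
    IsBoundedAtImInfty (tr u δ) := by
  obtain ⟨L, hL⟩ := hlim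
  exact hL.isBigO_one ℝ

/-- **Maximum principle on the modular curve**, absolute value version. -/
theorem exists_const (N : ℕ) [NeZero N] (u : ℍ → ℂ) (hu : MDiff u)
    (hinv : ∀ γ : SL(2, ℤ), γ ∈ Gamma0 N → ∀ z : ℍ, ‖u (γ • z)‖ = ‖u z‖)
    (hper : ∀ (δ : SL(2, ℤ)) (z : ℍ), u (δ • ((N : ℝ) +ᵥ z)) = u (δ • z))
    (hlim : ∀ δ : SL(2, ℤ), ∃ L : ℂ, Tendsto (fun w : ℍ => u (δ • w)) atImInfty (𝓝 L)) :
    ∃ c : ℂ, ∀ z : ℍ, u z = c := by
  have hN : (0 : ℝ) < (N : ℝ) := Nat.cast_pos.mpr (NeZero.pos N)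
  -- coset representatives and the corresponding cusp functions
  let s : SL(2, ℤ) ⧸ Gamma0 N → SL(2, ℤ) := fun x => (Quotient.out x)⁻¹
  let U : SL(2, ℤ) ⧸ Gamma0 N → ℂ → ℂ :=
    fun x => UpperHalfPlane.cuspFunction (N : ℝ) (tr u (s x))
  have hUper : ∀ x, Periodic (tr u (s x) ∘ ofComplex) ((N : ℝ) : ℂ) :=
    fun x => periodic_tr (s x) (hper (s x))
  have hUdiff : ∀ x, DifferentiableOn ℂ (U x) (Metric.ball 0 1) := fun x =>
    UpperHalfPlane.differentiableOn_cuspFunction_ball hN (hUper x) (mdiff_tr hu (s x))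
      (bounded_tr (s x) (hlim (s x)))
  have hUeq : ∀ x (τ : ℍ), U x (𝕢 (N : ℝ) τ) = u (s x • τ) := fun x τ =>
    UpperHalfPlane.eq_cuspFunction τ hN.ne' (hUper x)
  -- the radius of the compact disc
  set r : ℝ := Real.exp (-2 * π * (1 / 2) / N) with hr
  have hr0 : 0 ≤ r := (Real.exp_pos _).le
  have hr1 : r < 1 := by
    rw [hr, Real.exp_lt_one_iff]
    exact div_neg_of_neg_of_pos (by nlinarith [Real.pi_pos]) hN
  -- every value of `u` is, up to norm, a value of some `U x` on the closed disc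
  have key : ∀ z : ℍ, ∃ x : SL(2, ℤ) ⧸ Gamma0 N, ∃ q ∈ Metric.closedBall (0 : ℂ) r,
      ‖u z‖ = ‖U x q‖ := by
    intro z
    obtain ⟨g, hg⟩ := ModularGroup.exists_smul_mem_fd z
    obtain ⟨h, hh⟩ := QuotientGroup.mk_out_eq_mul (Gamma0 N) g
    refine ⟨(g : SL(2, ℤ) ⧸ Gamma0 N), 𝕢 (N : ℝ) ((g • z : ℍ) : ℂ), ?_, ?_⟩
    · rw [mem_closedBall_zero_iff, Function.Periodic.norm_qParam, hr, Real.exp_le_exp]
      have h3 := ModularGroup.three_le_four_mul_im_sq_of_mem_fd hg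
      have hpos := (g • z).im_pos
      have him : (1 : ℝ) / 2 ≤ (g • z).im := by nlinarith
      have him' : (((g • z : ℍ) : ℂ)).im = (g • z).im := rfl
      rw [him']
      apply div_le_div_of_nonneg_right _ hN.le
      nlinarith [Real.pi_pos]
    · rw [hUeq]
      show ‖u z‖ = ‖u ((Quotient.out (g : SL(2, ℤ) ⧸ Gamma0 N))⁻¹ • g • z)‖
      rw [hh, mul_inv_rev, ← mul_smul, inv_mul_cancel_right]
      exact (hinv _ (inv_mem h.2) z).symm
  -- an interior maximum
  have hmaxx : ∀ x : SL(2, ℤ) ⧸ Gamma0 N, ∃ q ∈ Metric.closedBall (0 : ℂ) r,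
      IsMaxOn (fun q => ‖U x q‖) (Metric.closedBall (0 : ℂ) r) q := fun x =>
    (isCompact_closedBall (0 : ℂ) r).exists_isMaxOn ⟨0, Metric.mem_closedBall_self hr0⟩
      (((hUdiff x).continuousOn.mono (Metric.closedBall_subset_ball hr1)).norm)
  choose qx hqx_mem hqx_max using hmaxx
  have : Nonempty (SL(2, ℤ) ⧸ Gamma0 N) := ⟨((1 : SL(2, ℤ)) : SL(2, ℤ) ⧸ Gamma0 N)⟩
  obtain ⟨x₀, hx₀⟩ := Finite.exists_max (fun x => ‖U x (qx x)‖)
  have hbound : ∀ z : ℍ, ‖u z‖ ≤ ‖U x₀ (qx x₀)‖ := by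
    intro z
    obtain ⟨x, q, hq, hq'⟩ := key z
    rw [hq']
    exact (isMaxOn_iff.mp (hqx_max x) q hq).trans (hx₀ x)
  have hmax : IsMaxOn (norm ∘ U x₀) (Metric.ball 0 1) (qx x₀) := by
    rw [isMaxOn_iff]
    intro q hq
    show ‖U x₀ q‖ ≤ ‖U x₀ (qx x₀)‖
    rcases eq_or_ne q 0 with rfl | hq0
    · exact isMaxOn_iff.mp (hqx_max x₀) 0 (Metric.mem_closedBall_self hr0)
    · have him : 0 < (Function.Periodic.invQParam (N : ℝ) q).im :=
        Function.Periodic.im_invQParam_pos_of_norm_lt_one hN (mem_ball_zero_iff.mp hq) hq0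
      have hq' : 𝕢 (N : ℝ) ((⟨_, him⟩ : ℍ) : ℂ) = q :=
        Function.Periodic.qParam_right_inv hN.ne' hq0
      rw [← hq', hUeq]
      exact hbound _
  have hconst := Complex.eqOn_of_isPreconnected_of_isMaxOn_norm
    (convex_ball (0 : ℂ) 1).isPreconnected Metric.isOpen_ball (hUdiff x₀)
    (Metric.closedBall_subset_ball hr1 (hqx_mem x₀)) hmax
  refine ⟨U x₀ (qx x₀), fun z => ?_⟩
  have h1 := hUeq x₀ ((s x₀)⁻¹ • z)
  rw [smul_inv_smul] at h1
  rw [← h1]
  exact hconst (mem_ball_zero_iff.mpr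
    (Function.Periodic.norm_qParam_lt_one hN ((s x₀)⁻¹ • z).im_pos))

/-- **Maximum principle on the modular curve**, real part version. -/
theorem exists_const_of_re (N : ℕ) [NeZero N] (Φ : ℍ → ℂ) (hΦ : MDiff Φ)
    (hinv : ∀ γ : SL(2, ℤ), γ ∈ Gamma0 N → ∀ z : ℍ, (Φ (γ • z)).re = (Φ z).re)
    (hper : ∀ (δ : SL(2, ℤ)) (z : ℍ), Φ (δ • ((N : ℝ) +ᵥ z)) = Φ (δ • z))
    (hlim : ∀ δ : SL(2, ℤ), ∃ L : ℂ, Tendsto (fun w : ℍ => Φ (δ • w)) atImInfty (𝓝 L)) :
    ∃ c : ℂ, ∀ z : ℍ, Φ z = c := by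
  have hΦ' : DifferentiableOn ℂ (Φ ∘ ofComplex) upperHalfPlaneSet :=
    UpperHalfPlane.mdifferentiable_iff.mp hΦ
  obtain ⟨c, hc⟩ := exists_const N (fun z => Complex.exp (Φ z))
    (by
      rw [UpperHalfPlane.mdifferentiable_iff]
      exact hΦ'.cexp)
    (fun γ hγ z => by rw [Complex.norm_exp, Complex.norm_exp, hinv γ hγ z])
    (fun δ z => by rw [hper δ z])
    (fun δ => by
      obtain ⟨L, hL⟩ := hlim δ
      exact ⟨Complex.exp L, (Complex.continuous_exp.tendsto L).comp hL⟩)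
  -- the derivative of `Φ ∘ ofComplex` vanishes on the upper half plane
  have hderiv : Set.EqOn (deriv (Φ ∘ ofComplex)) 0 upperHalfPlaneSet := by
    intro z hz
    have hd : HasDerivAt (Φ ∘ ofComplex) (deriv (Φ ∘ ofComplex) z) z :=
      ((hΦ' z hz).differentiableAt (isOpen_upperHalfPlaneSet.mem_nhds hz)).hasDerivAt
    have hd' := hd.cexp
    have hev : (fun w => Complex.exp ((Φ ∘ ofComplex) w)) =ᶠ[𝓝 z] fun _ => c := by
      filter_upwards [isOpen_upperHalfPlaneSet.mem_nhds hz] with w hw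
      rw [Function.comp_apply, ofComplex_apply_of_im_pos hw]
      exact hc _
    have h0 := (hd'.congr_of_eventuallyEq hev.symm).unique (hasDerivAt_const z c)
    simpa [Complex.exp_ne_zero] using h0
  refine ⟨Φ UpperHalfPlane.I, fun z => ?_⟩
  have hconn : IsPreconnected upperHalfPlaneSet :=
    (convex_halfSpace_im_gt 0).isPreconnected
  have h := isOpen_upperHalfPlaneSet.is_const_of_deriv_eq_zero hconn hΦ' hderiv
    z.im_pos UpperHalfPlane.I.im_pos
  rwa [Function.comp_apply, Function.comp_apply, ofComplex_apply, ofComplex_apply] at h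

end Fermat.Agent.S21.MaxMod

namespace Fermat.Agent.S21

/-- The real part version in the shape of the `s21_iface` stub. -/
theorem MaxPrinciple.const_of_re_invariant (N : ℕ) [NeZero N] (Φ : ℍ → ℂ)
    (hΦ : MDifferentiable 𝓘(ℂ) 𝓘(ℂ) Φ)
    (hinv : ∀ γ ∈ Gamma0 N, ∀ z : ℍ, (Φ (γ • z)).re = (Φ z).re)
    (hper : ∀ (σ : SL(2, ℤ)) (w : ℍ), Φ (σ • ((N : ℝ) +ᵥ w)) = Φ (σ • w))
    (hlim : ∀ σ : SL(2, ℤ), ∃ L : ℂ, Tendsto (fun w : ℍ => Φ (σ • w)) atImInfty (𝓝 L)) :
    ∀ z w : ℍ, Φ z = Φ w := by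
  obtain ⟨c, hc⟩ := MaxMod.exists_const_of_re N Φ hΦ hinv hper hlim
  intro z w
  rw [hc z, hc w]

/-- The absolute value version, two-point form. -/
theorem MaxPrinciple.const_of_norm_invariant (N : ℕ) [NeZero N] (u : ℍ → ℂ)
    (hu : MDifferentiable 𝓘(ℂ) 𝓘(ℂ) u)
    (hinv : ∀ γ ∈ Gamma0 N, ∀ z : ℍ, ‖u (γ • z)‖ = ‖u z‖)
    (hper : ∀ (σ : SL(2, ℤ)) (w : ℍ), u (σ • ((N : ℝ) +ᵥ w)) = u (σ • w))
    (hlim : ∀ σ : SL(2, ℤ), ∃ L : ℂ, Tendsto (fun w : ℍ => u (σ • w)) atImInfty (𝓝 L)) :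
    ∀ z w : ℍ, u z = u w := by
  obtain ⟨c, hc⟩ := MaxMod.exists_const N u hu hinv hper hlim
  intro z w
  rw [hc z, hc w]

end Fermat.Agent.S21

end
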